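import Fermat.Agent.S48.An1.Dvd

/-! # S48/An1 (port of ES/An, generic in Γ)-DictCore : common core of Dict-2 (used by `DictPt.lean` and `DictCusp.lean`).

`𝔐 ⊆ Mer` an intermediate field with an expansion `L : 𝔐 →ₐ[ℂ] ℂ((t))`, containing all `SL₂(ℤ)`-translates of `M.φ F`
and of `w`; `γ₀ ∈ SL₂(ℤ)` acts on expansions by `t ↦ ζ t`.  Then `dvd_ord_of_package` applies. -/

set_option autoImplicit false

open AlgebraicCurve ModularCurve UpperHalfPlane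
open scoped MatrixGroups IntermediateField Manifold ModularForm

namespace Fermat.Agent.S48.An1

open Fermat.Agent.ES.An

open Fermat.Agent.S24

noncomputable section

namespace DictCore

variable {Γ : Subgroup SL(2, ℤ)} [Γ.FiniteIndex] {N : ℕ} [NeZero N] {K F : Type} [Field K] [Field F] [Algebra K F] [Algebra K ℂ]

theorem algebraMap_K (r : K) :
    algebraMap K (LaurentSeries ℂ) r = HahnSeries.C (algebraMap K ℂ r) := by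
  rw [HahnSeries.algebraMap_apply', PowerSeries.algebraMap_apply]
  simp

/-- `u ∘ (g h)⁻¹ = (u ∘ h⁻¹) ∘ g⁻¹`. -/
theorem cmp_mul_inv (g h : SL(2, ℤ)) (u : Mer) :
    cmp (slp (g * h)⁻¹) u = cmp (slp g⁻¹) (cmp (slp h⁻¹) u) := by
  rw [mul_inv_rev, map_mul, cmp_mul]

theorem cmp_slp_one (u : Mer) : cmp (slp 1) u = u := by
  rw [map_one, cmp_one]

theorem cmp_jMer (g : SL(2, ℤ)) : cmp (slp g) jMer = jMer := by
  unfold jMer jdMer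
  rw [cmp_algebraMap]
  refine congrArg (algebraMap Hol Mer) (Subtype.ext ?_)
  funext τ
  rw [cmpHol_apply, slp_smul]
  show jd 1 (g • τ) = jd 1 τ
  rw [Packages.jd_one, jfun_smul]

/-- independence of the representative of the coset. -/
theorem cmp_inv_eq_of_coset (M : Model Γ N K F) {g g' : SL(2, ℤ)} (h : (g : (SL(2, ℤ) ⧸ Γ)) = (g' : (SL(2, ℤ) ⧸ Γ)))
    (f : F) : cmp (slp g'⁻¹) (M.φ f) = cmp (slp g⁻¹) (M.φ f) := by
  have h1 : g⁻¹ * g' ∈ Γ := QuotientGroup.eq.1 h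
  have h2 : g' = g * (g⁻¹ * g') := by group
  conv_lhs => rw [h2]
  rw [cmp_mul_inv]
  exact congrArg (cmp (slp g⁻¹)) (M.inv (⟨g⁻¹ * g', h1⟩⁻¹ : Γ) f)

theorem trace_conj (g x : SL(2, ℤ)) :
    ((g⁻¹ * x * g : SL(2, ℤ)) : Matrix (Fin 2) (Fin 2) ℤ).trace
      = (x : Matrix (Fin 2) (Fin 2) ℤ).trace := by
  rw [Matrix.SpecialLinearGroup.coe_mul, Matrix.SpecialLinearGroup.coe_mul, Matrix.trace_mul_cycle,
    ← Matrix.SpecialLinearGroup.coe_mul, mul_inv_cancel, Matrix.SpecialLinearGroup.coe_one,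
    Matrix.one_mul]

/-- invariance of `w ∘ g⁻¹` under the stabiliser of the coset `g Γ₀(N)`. -/
theorem cmp_inv_w_of_fix {w : Mer} {ψ : Γ →* ℂˣ} (hψ : IsGood ψ)
    (hc : IsChar w ψ) (g x : SL(2, ℤ)) (hx : ((x * g : SL(2, ℤ)) : (SL(2, ℤ) ⧸ Γ)) = (g : (SL(2, ℤ) ⧸ Γ)))
    (htr : |(x : Matrix (Fin 2) (Fin 2) ℤ).trace| ≤ 2) :
    cmp (slp x⁻¹) (cmp (slp g⁻¹) w) = cmp (slp g⁻¹) w := by
  have h1 : g⁻¹ * (x * g) ∈ Γ := QuotientGroup.eq.1 hx.symm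
  have h1' : g⁻¹ * x * g ∈ Γ := by rwa [mul_assoc]
  obtain ⟨γ, hγ⟩ : ∃ γ : Γ, (γ : SL(2, ℤ)) = g⁻¹ * x * g :=
    ⟨⟨g⁻¹ * x * g, h1'⟩, rfl⟩
  have h2 : ψ γ = 1 := hψ.2 γ (by rw [hγ, trace_conj]; exact htr)
  have h3 : cmp (slp ((γ⁻¹ : Γ) : SL(2, ℤ))) w = w := by
    rw [hc γ⁻¹, map_inv, h2, inv_one, Units.val_one, one_smul]
  rw [← cmp_mul_inv]
  have h4 : x * g = g * (γ : SL(2, ℤ)) := by
    rw [hγ, mul_assoc, mul_inv_cancel_left]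
  rw [h4, cmp_mul_inv]
  exact congrArg (cmp (slp g⁻¹)) h3

section core

variable (M : Model Γ N K F) (𝔐 : IntermediateField ℂ Mer) (L : 𝔐 →ₐ[ℂ] LaurentSeries ℂ)
  (hφ : ∀ (g : SL(2, ℤ)) (f : F), cmp (slp g) (M.φ f) ∈ 𝔐)

/-- `f ↦ (M.φ f) ∘ g`, as a ring hom to `𝔐`. -/
def rho (g : SL(2, ℤ)) : F →+* 𝔐 :=
  (((cmp (slp g)) : Mer →+* Mer).comp M.φ).codRestrict 𝔐 (fun f => hφ g f)

theorem coe_rho (g : SL(2, ℤ)) (f : F) : ((rho M 𝔐 hφ g f : 𝔐) : Mer) = cmp (slp g) (M.φ f) := rfl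

/-- the embeddings `σ (g Γ₀) = L ∘ (· ∘ g⁻¹) ∘ M.φ`. -/
def sig (a : (SL(2, ℤ) ⧸ Γ)) : F →ₐ[K] LaurentSeries ℂ :=
  { (L : 𝔐 →+* LaurentSeries ℂ).comp (rho M 𝔐 hφ (Quotient.out a)⁻¹) with
    commutes' := fun c => by
      show L (rho M 𝔐 hφ (Quotient.out a)⁻¹ (algebraMap K F c)) = _
      have h1 : rho M 𝔐 hφ (Quotient.out a)⁻¹ (algebraMap K F c)
          = algebraMap ℂ 𝔐 (algebraMap K ℂ c) := by
        apply Subtype.ext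
        rw [coe_rho, M.φ_alg, AlgHom.commutes]
        rfl
      rw [h1, AlgHom.commutes, Packages.algebraMap_C, algebraMap_K] }

theorem sig_apply (a : (SL(2, ℤ) ⧸ Γ)) (f : F) :
    sig M 𝔐 L hφ a f = L (rho M 𝔐 hφ (Quotient.out a)⁻¹ f) := rfl

theorem sig_eq (a : (SL(2, ℤ) ⧸ Γ)) (g : SL(2, ℤ)) (hg : (g : (SL(2, ℤ) ⧸ Γ)) = a) (f : F) :
    sig M 𝔐 L hφ a f = L (rho M 𝔐 hφ g⁻¹ f) := by
  rw [sig_apply]
  congr 1
  apply Subtype.ext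
  rw [coe_rho, coe_rho]
  exact cmp_inv_eq_of_coset M (by rw [hg, QuotientGroup.out_eq']) f

theorem sig_injective : Function.Injective (sig M 𝔐 L hφ) := by
  intro a b hab
  have h1 : ∀ f : F, cmp (slp (Quotient.out a)⁻¹) (M.φ f) = cmp (slp (Quotient.out b)⁻¹) (M.φ f) := by
    intro f
    have h := DFunLike.congr_fun hab f
    rw [sig_apply, sig_apply] at h
    have h2 := L.toRingHom.injective h
    exact congrArg Subtype.val h2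
  have h2 : (Quotient.out b)⁻¹ * Quotient.out a ∈ Γ := by
    apply M.sep
    intro f
    have h3 := congrArg (cmp (slp (Quotient.out a))) (h1 f)
    rw [← cmp_mul, ← cmp_mul, ← map_mul, ← map_mul, inv_mul_cancel, cmp_slp_one] at h3
    exact h3.symm
  have h3 : ((Quotient.out b : SL(2, ℤ)) : (SL(2, ℤ) ⧸ Γ)) = ((Quotient.out a : SL(2, ℤ)) : (SL(2, ℤ) ⧸ Γ)) :=
    QuotientGroup.eq.2 h2
  rw [QuotientGroup.out_eq', QuotientGroup.out_eq'] at h3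
  exact h3.symm

variable [IsAlgClosed K] [CharZero K]

include hφ in
theorem main (m : ℕ) (f : F) (hf0 : f ≠ 0) (w : Mer)
    (hw : w ^ m = M.φ f) (ψ : Γ →* ℂˣ) (hψ : IsGood ψ)
    (hc : IsChar w ψ) (hw𝔐 : ∀ g : SL(2, ℤ), cmp (slp g) w ∈ 𝔐)
    (u : F) (hu : Transcendental K u) (hKu : K⟮u⟯ = K⟮M.j⟯)
    (hinv : ∀ g : SL(2, ℤ), cmp (slp g) (M.φ u) = M.φ u)
    (E₀ : ℕ) (hE₀ : 0 < E₀) (hord : ∀ h : M.φ u ∈ 𝔐, (L ⟨M.φ u, h⟩).order = (E₀ : ℤ))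
    (ζ : ℂ) (hζ : IsPrimitiveRoot ζ E₀) (γ₀ : SL(2, ℤ))
    (hL : ∀ (x : 𝔐) (hx : cmp (slp γ₀⁻¹) (x : Mer) ∈ 𝔐) (k : ℤ),
      (L ⟨_, hx⟩).coeff k = ζ ^ k * (L x).coeff k)
    (htr : ∀ n : ℕ, |((γ₀ ^ n : SL(2, ℤ)) : Matrix (Fin 2) (Fin 2) ℤ).trace| ≤ 2)
    (P : Place K F) (hP : 0 < P.ord u) : (m : ℤ) ∣ P.ord f := by
  have hfin : FiniteDimensional K⟮u⟯ F := by
    have := M.fin
    exact FF.finiteDimensional_congr K hKu.symm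
  -- the roots
  let U : (SL(2, ℤ) ⧸ Γ) → LaurentSeries ℂ := fun a => L ⟨cmp (slp (Quotient.out a)⁻¹) w, hw𝔐 _⟩
  -- iterates of `γ₀`
  have hiter : ∀ (W : Mer) (hW : ∀ g : SL(2, ℤ), cmp (slp g) W ∈ 𝔐) (hW0 : W ∈ 𝔐) (n : ℕ) (k : ℤ),
      (L ⟨cmp (slp (γ₀ ^ n)⁻¹) W, hW _⟩).coeff k = (ζ ^ k) ^ n * (L ⟨W, hW0⟩).coeff k := by
    intro W hW hW0 n k
    induction n with
    | zero =>
      have : (⟨cmp (slp (γ₀ ^ 0)⁻¹) W, hW _⟩ : 𝔐) = ⟨W, hW0⟩ := by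
        apply Subtype.ext
        show cmp (slp (γ₀ ^ 0)⁻¹) W = W
        rw [pow_zero, inv_one, cmp_slp_one]
      rw [this]; simp
    | succ n ih =>
      have h1 : cmp (slp (γ₀ ^ (n + 1))⁻¹) W = cmp (slp γ₀⁻¹) (cmp (slp (γ₀ ^ n)⁻¹) W) := by
        rw [pow_succ', cmp_mul_inv]
      have h2 := hL ⟨cmp (slp (γ₀ ^ n)⁻¹) W, hW _⟩ (by rw [← h1]; exact hW _) k
      have h3 : (⟨cmp (slp (γ₀ ^ (n + 1))⁻¹) W, hW _⟩ : 𝔐)
          = ⟨cmp (slp γ₀⁻¹) (cmp (slp (γ₀ ^ n)⁻¹) W), by rw [← h1]; exact hW _⟩ :=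
        Subtype.ext h1
      rw [h3, h2, ih, pow_succ]
      ring
  refine dvd_ord_of_package (G := SL(2, ℤ)) (X := (SL(2, ℤ) ⧸ Γ)) u hu (sig M 𝔐 L hφ) (sig_injective M 𝔐 L hφ)
    ?_ ?_ E₀ hE₀ ?_ ζ hζ γ₀ ?_ m f hf0 U ?_ ?_ P hP
  · rw [FF.finrank_congr K hKu, M.deg]
  · intro a b
    rw [sig_apply, sig_apply]
    congr 1
    apply Subtype.ext
    rw [coe_rho, coe_rho, hinv, hinv]
  · intro a
    rw [sig_apply]
    have h1 : M.φ u ∈ 𝔐 := by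
      have := hφ 1 u
      rwa [cmp_slp_one] at this
    have h2 : rho M 𝔐 hφ (Quotient.out a)⁻¹ u = ⟨M.φ u, h1⟩ := by
      apply Subtype.ext
      rw [coe_rho, hinv]
    rw [h2, hord h1]
  · intro a f k
    have h1 : ((γ₀ * Quotient.out a : SL(2, ℤ)) : (SL(2, ℤ) ⧸ Γ)) = γ₀ • a := by
      conv_rhs => rw [← QuotientGroup.out_eq' a]
      rfl
    rw [sig_eq M 𝔐 L hφ (γ₀ • a) (γ₀ * Quotient.out a) h1, sig_apply]
    have h2 := hL (rho M 𝔐 hφ (Quotient.out a)⁻¹ f)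
      (by rw [coe_rho, ← cmp_mul_inv]; exact hφ _ _) k
    rw [← h2]
    congr 2
    apply Subtype.ext
    exact cmp_mul_inv γ₀ _ _
  · intro a
    rw [sig_apply, ← map_pow]
    congr 1
    apply Subtype.ext
    rw [coe_rho, ← hw, map_pow]
    rfl
  · intro a n hn k
    have hW : ∀ g : SL(2, ℤ), cmp (slp g) (cmp (slp (Quotient.out a)⁻¹) w) ∈ 𝔐 := by
      intro g
      rw [← cmp_mul, ← map_mul]
      exact hw𝔐 _
    have h1 := hiter (cmp (slp (Quotient.out a)⁻¹) w) hW (hw𝔐 _) n k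
    have h2 : ((γ₀ ^ n * Quotient.out a : SL(2, ℤ)) : (SL(2, ℤ) ⧸ Γ)) = ((Quotient.out a : SL(2, ℤ)) : (SL(2, ℤ) ⧸ Γ)) := by
      rw [QuotientGroup.out_eq']
      conv_rhs => rw [← hn]
      conv_rhs => rw [← QuotientGroup.out_eq' a]
      rfl
    have h3 := cmp_inv_w_of_fix hψ hc (Quotient.out a) (γ₀ ^ n) h2 (htr n)
    rw [← h1]
    show (L ⟨cmp (slp (Quotient.out a)⁻¹) w, hw𝔐 _⟩).coeff k = _
    congr 2
    exact Subtype.ext h3.symm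

end core

end DictCore

end

end Fermat.Agent.S48.An1
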