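import Fermat.Agent.S48.An1.DictCusp
import Fermat.Agent.S48.An1.DictCore
import Fermat.Agent.S48.An1.Char
import Fermat.Agent.ES.An.HolCrit
import Fermat.Agent.ES.An.HeckeLau
import Fermat.Agent.ES.An.MkMF
import Fermat.Agent.S21.Parabolic

/-! # S48/An1 (port of ES/An, generic in Γ)-GoodPar : (K6), parabolic part.

The character of the `m`-th roots of a Kummer class `f` (`m ∣ div f`) kills the parabolic elements of `Γ₀(N)`.

* `γ = ± δ T^n δ⁻¹` (`S21.exists_conj_T_zpow`); with `d = gcd (n, N)`, `δ T^d δ⁻¹ ∈ Γ₀(N)` and `±γ` is a power of it.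
* `GoodPar.dvd_order_cuspHom` (order trick): the order at the cusp of `f` is divisible by `(N/d) m`.
* `GoodPar.mem_MerCusp_of_pow` (Lemma (R)): an `N`-periodic `m`-th root of an element of `MerCusp N` is in `MerCusp N`.
* `GoodPar.eq_one_of_par`: twist the root by `exp (2πi s τ / (d m))` and compare orders. -/

set_option autoImplicit false

open AlgebraicCurve ModularCurve UpperHalfPlane
open scoped MatrixGroups IntermediateField Manifold ModularForm

namespace Fermat.Agent.S48.An1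

open Fermat.Agent.ES Fermat.Agent.ES.An

open Fermat.Agent.S24

noncomputable section

namespace GoodPar

/-- the stabiliser of `w` in `SL₂(ℤ)`. -/
def stab (w : Mer) : Subgroup SL(2, ℤ) where
  carrier := {g | cmp (slp g) w = w}
  mul_mem' := by
    intro a b ha hb
    show cmp (slp (a * b)) w = w
    rw [map_mul, cmp_mul]
    rw [show cmp (slp a) w = w from ha]
    exact hb
  one_mem' := by
    show cmp (slp 1) w = w
    rw [map_one, cmp_one]
  inv_mem' := by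
    intro a ha
    show cmp (slp a⁻¹) w = w
    have h : cmp (slp a) w = w := ha
    conv_lhs => rw [← h]
    rw [map_inv, cmp_inv_cmp]

theorem mem_stab {w : Mer} {g : SL(2, ℤ)} : g ∈ stab w ↔ cmp (slp g) w = w := Iff.rfl

theorem cmpHol_neg (g : SL(2, ℤ)) (f : Hol) : cmpHol (slp (-g)) f = cmpHol (slp g) f := by
  apply Subtype.ext
  funext τ
  rw [cmpHol_apply, cmpHol_apply, slp_smul, slp_smul, ModularGroup.SL_neg_smul]

theorem cmp_neg (g : SL(2, ℤ)) (u : Mer) : cmp (slp (-g)) u = cmp (slp g) u := by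
  obtain ⟨a, b, -, rfl⟩ := exists_div u
  rw [cmp_div, cmp_div, cmpHol_neg, cmpHol_neg]

/-- iterated translation. -/
theorem hasLau_cmp_T_pow {h : ℕ} [NeZero h] {u : Mer} {x : LaurentSeries ℂ}
    (hu : HasLau h u x) (n : ℕ) :
    HasLau h (cmp (slp (ModularGroup.T ^ n)) u) (twist (zetaU h ^ n) x) := by
  induction n with
  | zero =>
    rw [pow_zero, map_one, cmp_one, pow_zero]
    have : twist (1 : ℂˣ) x = x := by
      ext k
      rw [twist_coeff]
      simp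
    rw [this]
    exact hu
  | succ n ih =>
    rw [pow_succ, map_mul, cmp_mul]
    have h1 := ih.cmp_T
    have : twist (zetaU h) (twist (zetaU h ^ n) x) = twist (zetaU h ^ (n + 1)) x := by
      ext k
      rw [twist_coeff, twist_coeff, twist_coeff, ← mul_assoc, ← Units.val_mul, pow_succ, mul_zpow,
        mul_comm (zetaU h ^ k)]
    rw [← this]
    exact h1

theorem zetaU_isPrimitiveRoot (h : ℕ) [NeZero h] : IsPrimitiveRoot (zetaU h) h := by
  have h1 := Complex.isPrimitiveRoot_exp h (NeZero.ne h)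
  rw [← IsPrimitiveRoot.coe_units_iff]
  exact h1

/-- the `q_N`-expansion of a `T^d`-invariant function is supported on multiples of `N/d`. -/
theorem dvd_of_invariant {N d e : ℕ} [NeZero N] (hN : N = d * e) {u : Mer} {x : LaurentSeries ℂ}
    (hu : HasLau N u x) (hinv : cmp (slp (ModularGroup.T ^ d)) u = u) (k : ℤ)
    (hk : x.coeff k ≠ 0) : (e : ℤ) ∣ k := by
  have h1 := hasLau_cmp_T_pow hu d
  rw [hinv] at h1
  have h2 := congrArg (fun y : LaurentSeries ℂ => y.coeff k) (h1.unique hu)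
  simp only [twist_coeff] at h2
  have h3 : (((zetaU N ^ d) ^ k : ℂˣ) : ℂ) = 1 := mul_right_cancel₀ hk (h2.trans (one_mul _).symm)
  have h4 : (zetaU N) ^ ((d : ℤ) * k) = 1 := by
    rw [zpow_mul, zpow_natCast]
    exact Units.ext h3
  have h5 := (zetaU_isPrimitiveRoot N).zpow_eq_one_iff_dvd _ |>.mp h4
  have hd : (d : ℤ) ≠ 0 := by
    have : d ≠ 0 := by
      rintro rfl
      exact NeZero.ne N (by rw [hN, zero_mul])
    exact_mod_cast this
  rw [hN] at h5
  push_cast at h5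
  exact (mul_dvd_mul_iff_left hd).mp h5

theorem T_pow_smul (n : ℕ) (τ : ℍ) : (ModularGroup.T ^ n : SL(2, ℤ)) • τ = (n : ℝ) +ᵥ τ := by
  have := UpperHalfPlane.modular_T_zpow_smul τ (n : ℤ)
  rw [zpow_natCast] at this
  rw [this]
  simp

/-- **Lemma (R).** An `N`-periodic `m`-th root of an element of `MerCusp N` is in `MerCusp N`. -/
theorem mem_MerCusp_of_pow {N m : ℕ} [NeZero N] (hm : 0 < m) (u : Mer)
    (hinv : cmp (slp (ModularGroup.T ^ N)) u = u) (hu : u ^ m ∈ MerCusp N) : u ∈ MerCusp N := by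
  obtain ⟨a, b, hb, hab⟩ := (mem_MerCusp_iff N _).mp hu
  have hinj := IsFractionRing.injective Hol Mer
  have hb' : cuspIncl N b ≠ 0 := fun h => hb (cuspIncl_injective N (by rw [h, map_zero]))
  have hbM : algebraMap Hol Mer (cuspIncl N b) ≠ 0 := by
    rw [Ne, map_eq_zero_iff _ hinj]
    exact hb'
  obtain ⟨n, rfl⟩ : ∃ n, m = n + 1 := ⟨m - 1, by omega⟩
  have hv : (u * algebraMap Hol Mer (cuspIncl N b)) ^ (n + 1)
      = algebraMap Hol Mer (cuspIncl N (a * b ^ n)) := by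
    rw [mul_pow, hab, map_mul, map_mul, map_pow, map_pow, pow_succ]
    field_simp
  have hord : ∀ τ, 0 ≤ ordAt τ (u * algebraMap Hol Mer (cuspIncl N b)) := by
    intro τ
    have h1 := ordAt_pow τ (u * algebraMap Hol Mer (cuspIncl N b)) (n + 1)
    rw [hv] at h1
    have h2 := ordAt_algebraMap_nonneg τ (cuspIncl N (a * b ^ n))
    rw [h1] at h2
    have h3 : (0 : ℤ) < ((n + 1 : ℕ) : ℤ) := by positivity
    exact nonneg_of_mul_nonneg_right h2 h3
  obtain ⟨V, hV⟩ := exists_Hol_of_ordAt_nonneg _ hord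
  have hVm : V ^ (n + 1) = cuspIncl N (a * b ^ n) := hinj (by rw [map_pow, hV, hv])
  -- periodicity of `b`
  have hbper : cmpHol (slp (ModularGroup.T ^ N)) (cuspIncl N b) = cuspIncl N b := by
    apply Subtype.ext
    funext τ
    rw [cmpHol_apply, slp_smul, T_pow_smul]
    exact Laurent.vadd_of_periodic b.2.2.1 τ
  have hVper : cmpHol (slp (ModularGroup.T ^ N)) V = V := by
    apply hinj
    rw [← cmp_algebraMap, hV, map_mul, hinv, cmp_algebraMap, hbper]
  have hVper' : ∀ τ : ℍ, (V : ℍ → ℂ) ((N : ℝ) +ᵥ τ) = (V : ℍ → ℂ) τ := by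
    intro τ
    have := congrFun (congrArg Subtype.val hVper) τ
    rw [cmpHol_apply, slp_smul, T_pow_smul] at this
    exact this
  obtain ⟨k, hk⟩ := (a * b ^ n).2.2.2
  have hVmem : (V : ℍ → ℂ) ∈ HolCusp N := by
    refine ⟨V.2, periodic_of_vadd _ _ hVper', k, ?_⟩
    apply bdd_of_pow (Nat.succ_pos n)
    have h1 : (fun τ => (V : ℍ → ℂ) τ * qh N τ ^ k) ^ (n + 1)
        = (fun τ => ((a * b ^ n : HolCusp N) : ℍ → ℂ) τ * qh N τ ^ k) * (fun τ => qh N τ ^ (k * n)) := by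
      funext τ
      have h2 : (V : ℍ → ℂ) τ ^ (n + 1) = ((a * b ^ n : HolCusp N) : ℍ → ℂ) τ :=
        congrFun (congrArg Subtype.val hVm) τ
      simp only [Pi.pow_apply, Pi.mul_apply]
      rw [mul_pow, h2, ← pow_mul, mul_assoc, ← pow_add]
      congr 2
      ring
    rw [h1]
    exact hk.mul (Laurent.bdd_qh_pow N _)
  rw [mem_MerCusp_iff]
  refine ⟨⟨V, hVmem⟩, b, hb, ?_⟩
  have : cuspIncl N ⟨V, hVmem⟩ = V := rfl
  rw [this, hV, mul_div_assoc, div_self hbM, mul_one]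

/-- `τ ↦ exp (c τ)`. -/
def expHol (c : ℂ) : Hol := ⟨fun τ => Complex.exp (c * (τ : ℂ)), by
  show MDiff (fun τ : ℍ => Complex.exp (c * (τ : ℂ)))
  rw [UpperHalfPlane.mdifferentiable_iff]
  have h1 : Differentiable ℂ (fun z : ℂ => Complex.exp (c * z)) := by fun_prop
  refine h1.differentiableOn.congr ?_
  intro z hz
  simp only [Function.comp_apply, ofComplex_apply_of_im_pos hz, coe_mk]⟩

theorem expHol_apply (c : ℂ) (τ : ℍ) : (expHol c : ℍ → ℂ) τ = Complex.exp (c * (τ : ℂ)) := rfl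

theorem expHol_pow (c : ℂ) (m : ℕ) : expHol c ^ m = expHol (m * c) := by
  apply Subtype.ext
  funext τ
  show Complex.exp (c * (τ : ℂ)) ^ m = Complex.exp (m * c * (τ : ℂ))
  rw [← Complex.exp_nat_mul]
  congr 1
  ring

theorem cmpHol_T_pow_expHol (c : ℂ) (d : ℕ) :
    cmpHol (slp (ModularGroup.T ^ d)) (expHol c) = Complex.exp (c * d) • expHol c := by
  apply Subtype.ext
  funext τ
  rw [cmpHol_apply, slp_smul, T_pow_smul]
  show Complex.exp (c * (((d : ℝ) +ᵥ τ : ℍ) : ℂ)) = Complex.exp (c * d) * Complex.exp (c * (τ : ℂ))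
  rw [← Complex.exp_add, coe_vadd]
  congr 1
  push_cast
  ring

theorem expHol_eq_Tq (N : ℕ) [NeZero N] (k : ℕ) :
    expHol (2 * Real.pi * Complex.I * k / N) = cuspIncl N (Laurent.Tq N ^ k) := by
  apply Subtype.ext
  funext τ
  show Complex.exp (2 * Real.pi * Complex.I * k / N * (τ : ℂ)) = (Laurent.qq (N : ℝ) τ) ^ k
  simp only [Laurent.qq, Function.Periodic.qParam]
  rw [← Complex.exp_nat_mul]
  congr 1
  push_cast
  ring

theorem cmp_of_conj {g c : SL(2, ℤ)} {u v : Mer} (h : cmp (slp (g⁻¹ * c * g)) u = v) :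
    cmp (slp c) (cmp (slp g⁻¹) u) = cmp (slp g⁻¹) v := by
  rw [← h, map_mul, map_mul, cmp_mul, cmp_mul, map_inv slp g, cmp_inv_cmp]

variable {Γ : Subgroup SL(2, ℤ)} [Γ.FiniteIndex] {N : ℕ} [NeZero N] {K F : Type} [Field K] [Field F] [Algebra K F] [Algebra K ℂ]

theorem hasLau_cuspHom (M : Model Γ N K F) (g : SL(2, ℤ)) (x : F) :
    HasLau N (cmp (slp g⁻¹) (M.φ x)) (M.cuspHom g x) :=
  hasLau_lau N ⟨_, M.cusp g⁻¹ x⟩

/-- the order trick. -/
theorem dvd_order_cuspHom (M : Model Γ N K F) (g : SL(2, ℤ)) {d e : ℕ} (hN : N = d * e)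
    (hγ : g⁻¹ * ModularGroup.T ^ d * g ∈ Γ) (m : ℕ) (f : F)
    (hf0 : f ≠ 0) (hf : DivBy K m f) : ((e : ℤ) * m) ∣ (M.cuspHom g f).order := by
  have hinvF : ∀ x : F, cmp (slp (ModularGroup.T ^ d)) (cmp (slp g⁻¹) (M.φ x))
      = cmp (slp g⁻¹) (M.φ x) := fun x => cmp_of_conj (M.inv ⟨_, hγ⟩ x)
  have hne : ∀ x : F, x ≠ 0 → M.cuspHom g x ≠ 0 := fun x hx => (map_ne_zero _).mpr hx
  have hdvd : ∀ x : F, x ≠ 0 → (e : ℤ) ∣ (M.cuspHom g x).order := fun x hx =>
    dvd_of_invariant hN (hasLau_cuspHom M g x) (hinvF x) _ (HahnSeries.coeff_order_eq_zero.not.mpr (hne x hx))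
  by_cases hnt : ∃ x : F, x ≠ 0 ∧ (M.cuspHom g x).order ≠ 0
  · obtain ⟨v, c, -, hv⟩ := FF.exists_place_of_ordFun (K := K) (fun x : F => (M.cuspHom g x).order)
      (fun a b ha hb => by
        show (M.cuspHom g (a * b)).order = _
        rw [map_mul, HahnSeries.order_mul (hne a ha) (hne b hb)])
      (fun a b ha hb hab => by
        show _ ≤ (M.cuspHom g (a + b)).order
        rw [map_add]
        apply HahnSeries.min_order_le_order_add
        rw [← map_add]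
        exact hne _ hab)
      (fun c _ => by
        show (M.cuspHom g (algebraMap K F c)).order = 0
        rw [AlgHom.commutes, DictCore.algebraMap_K, HahnSeries.order_C])
      hnt
    obtain ⟨π, hπ⟩ := FF.exists_ord_eq_one v
    have hπ0 : π ≠ 0 := FF.ne_zero_of_ord_ne_zero v (by rw [hπ]; exact one_ne_zero)
    have h1 := hdvd π hπ0
    rw [hv π hπ0, hπ, mul_one] at h1
    rw [hv f hf0]
    exact mul_dvd_mul h1 (hf v)
  · push Not at hnt
    rw [hnt f hf0]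
    exact dvd_zero _

theorem algebraMap_smul_Hol (c : ℂ) (E : Hol) :
    algebraMap Hol Mer (c • E) = c • algebraMap Hol Mer E := by
  rw [Algebra.smul_def, map_mul, Algebra.smul_def, ← IsScalarTower.algebraMap_apply]

/-- the main computation at the cusp `g⁻¹ ∞`. -/
theorem eq_one_of_par (M : Model Γ N K F) {m : ℕ} (hm : 0 < m) (f : F) (hf0 : f ≠ 0)
    (hf : DivBy K m f) (w : Mer) (hw0 : w ≠ 0) (hw : w ^ m = M.φ f) (g : SL(2, ℤ)) {d e : ℕ}
    (hN : N = d * e) (hγ : g⁻¹ * ModularGroup.T ^ d * g ∈ Γ) (ε : ℂ)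
    (hε : cmp (slp (g⁻¹ * ModularGroup.T ^ d * g)) w = ε • w) : ε = 1 := by
  have hN0 : N ≠ 0 := NeZero.ne N
  have hd0 : d ≠ 0 := by
    rintro rfl
    exact hN0 (by rw [hN, zero_mul])
  have he0 : e ≠ 0 := by
    rintro rfl
    exact hN0 (by rw [hN, mul_zero])
  set u₁ : Mer := cmp (slp g⁻¹) w with hu₁
  have hu₁0 : u₁ ≠ 0 := (map_ne_zero _).mpr hw0
  have h1 : cmp (slp (ModularGroup.T ^ d)) u₁ = ε • u₁ := by
    rw [hu₁, cmp_of_conj hε, map_smul]
  have hpow : u₁ ^ m = cmp (slp g⁻¹) (M.φ f) := by rw [hu₁, ← map_pow, hw]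
  have hinvf : cmp (slp (ModularGroup.T ^ d)) (u₁ ^ m) = u₁ ^ m := by
    rw [hpow]
    exact cmp_of_conj (M.inv ⟨_, hγ⟩ f)
  have hεm : ε ^ m = 1 := by
    rw [map_pow, h1, smul_pow] at hinvf
    exact Char.smul_left_cancel (pow_ne_zero m hu₁0) (hinvf.trans (one_smul _ _).symm)
  have hε0 : ε ≠ 0 := by
    rintro rfl
    rw [zero_pow hm.ne'] at hεm
    exact zero_ne_one hεm
  have : NeZero m := ⟨hm.ne'⟩
  obtain ⟨s, hs, hsε⟩ := (Complex.isPrimitiveRoot_exp m hm.ne').eq_pow_of_pow_eq_one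
    (ξ := ε⁻¹) (by rw [inv_pow, hεm, inv_one])
  have hdC : (d : ℂ) ≠ 0 := by exact_mod_cast hd0
  have heC : (e : ℂ) ≠ 0 := by exact_mod_cast he0
  have hmC : (m : ℂ) ≠ 0 := by exact_mod_cast hm.ne'
  set E : Hol := expHol (2 * Real.pi * Complex.I * s / (d * m)) with hEdef
  have hE : cmpHol (slp (ModularGroup.T ^ d)) E = ε⁻¹ • E := by
    rw [hEdef, cmpHol_T_pow_expHol, ← hsε, ← Complex.exp_nat_mul]
    congr 2
    field_simp
  have hEm : E ^ m = cuspIncl N (Laurent.Tq N ^ (s * e)) := by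
    rw [hEdef, expHol_pow, ← expHol_eq_Tq]
    congr 1
    rw [hN]
    push_cast
    field_simp
  set u₂ : Mer := u₁ * algebraMap Hol Mer E with hu₂
  have hE0 : algebraMap Hol Mer E ≠ 0 := by
    rw [Ne, map_eq_zero_iff _ (IsFractionRing.injective Hol Mer)]
    intro h
    have := congrFun (congrArg Subtype.val h) UpperHalfPlane.I
    exact Complex.exp_ne_zero _ this
  have hu₂0 : u₂ ≠ 0 := mul_ne_zero hu₁0 hE0
  have hu₂inv : cmp (slp (ModularGroup.T ^ d)) u₂ = u₂ := by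
    rw [hu₂, map_mul, h1, cmp_algebraMap, hE, algebraMap_smul_Hol, smul_mul_smul_comm,
      mul_inv_cancel₀ hε0, one_smul]
  have hu₂N : cmp (slp (ModularGroup.T ^ N)) u₂ = u₂ := by
    have h2 : ModularGroup.T ^ d ∈ stab u₂ := hu₂inv
    have h3 := pow_mem h2 e
    rw [← pow_mul, ← hN] at h3
    exact h3
  have hlau₂ : HasLau N (u₂ ^ m) (M.cuspHom g f * HahnSeries.single ((s * e : ℕ) : ℤ) 1) := by
    have h2 := (hasLau_cuspHom M g f).mul (hasLau_of_holCusp N (Laurent.Tq N ^ (s * e)))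
    rw [← hpow, ← hEm, map_pow, ← mul_pow, map_pow, Laurent.laurent_Tq, HahnSeries.single_pow,
      one_pow] at h2
    simpa using h2
  have hmem : u₂ ∈ MerCusp N := mem_MerCusp_of_pow hm u₂ hu₂N hlau₂.mem
  have hx := hasLau_lau N ⟨u₂, hmem⟩
  set x : LaurentSeries ℂ := lau N ⟨u₂, hmem⟩ with hxdef
  have hxm : x ^ m = M.cuspHom g f * HahnSeries.single ((s * e : ℕ) : ℤ) 1 :=
    (hx.pow m).unique hlau₂
  have hσ0 : M.cuspHom g f ≠ 0 := (map_ne_zero _).mpr hf0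
  have hsing : (HahnSeries.single ((s * e : ℕ) : ℤ) (1 : ℂ)) ≠ 0 := by simp
  have hx0 : x ≠ 0 := by
    intro h
    rw [h, zero_pow hm.ne'] at hxm
    exact mul_ne_zero hσ0 hsing hxm.symm
  have hord : (m : ℤ) * x.order = (M.cuspHom g f).order + ((s * e : ℕ) : ℤ) := by
    have h2 := congrArg HahnSeries.order hxm
    rw [HahnSeries.order_pow, HahnSeries.order_mul hσ0 hsing,
      HahnSeries.order_single one_ne_zero] at h2
    simpa using h2
  obtain ⟨y, hy⟩ := dvd_of_invariant hN hx hu₂inv _ (HahnSeries.coeff_order_eq_zero.not.mpr hx0)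
  obtain ⟨z, hz⟩ := dvd_order_cuspHom M g hN hγ m f hf0 hf
  rw [hy, hz] at hord
  have heZ : (e : ℤ) ≠ 0 := by exact_mod_cast he0
  have h3 : (m : ℤ) * y = m * z + s := by
    apply mul_left_cancel₀ heZ
    push_cast at hord
    linear_combination hord
  have h4 : (m : ℤ) ∣ s := ⟨y - z, by linear_combination -h3⟩
  have h5 : s = 0 := Nat.eq_zero_of_dvd_of_lt (by exact_mod_cast h4) hs
  rw [h5, pow_zero] at hsε
  exact (inv_eq_one.mp hsε.symm)

theorem conj_T_pow_mem_of_le {Γ : Subgroup SL(2, ℤ)} (N : ℕ) (hΓ : CongruenceSubgroup.Gamma N ≤ Γ)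
    (δ : SL(2, ℤ)) : δ * ModularGroup.T ^ (N : ℤ) * δ⁻¹ ∈ Γ := by
  have h1 : ModularGroup.T ^ (N : ℤ) ∈ CongruenceSubgroup.Gamma N := by
    have := CongruenceSubgroup.ModularGroup_T_pow_mem_Gamma (N : ℤ) (N : ℤ) dvd_rfl
    simpa using this
  exact hΓ ((CongruenceSubgroup.Gamma_normal N).conj_mem _ h1 δ)

end GoodPar

open GoodPar in
/-- **(K6), parabolic part.** -/
theorem Model.char_par {Γ : Subgroup SL(2, ℤ)} [Γ.FiniteIndex] {N : ℕ} [NeZero N] {K F : Type}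
    [Field K] [Field F] [Algebra K F] [Algebra K ℂ] (M : Model Γ N K F)
    (hΓ : CongruenceSubgroup.Gamma N ≤ Γ) (hneg : ∀ g : SL(2, ℤ), -g ∈ Γ → g ∈ Γ)
    {m : ℕ} (hm : 0 < m) {f : F} (hf0 : f ≠ 0)
    (hf : DivBy K m f) {w : Mer} (hw0 : w ≠ 0) (hw : w ^ m = M.φ f) {χ : Γ →* ℂˣ}
    (hχ : IsChar w χ) (γ : Γ)
    (hγ : ((γ : SL(2, ℤ)) : Matrix (Fin 2) (Fin 2) ℤ).trace ^ 2 = 4) : χ γ = 1 := by
  obtain ⟨δ, n, hn⟩ := Fermat.Agent.S21.exists_conj_T_zpow (γ : SL(2, ℤ)) hγ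
  set c : SL(2, ℤ) := δ * ModularGroup.T * δ⁻¹ with hc
  have hconj : ∀ k : ℤ, δ * ModularGroup.T ^ k * δ⁻¹ = c ^ k := fun k => conj_zpow.symm
  rw [hconj] at hn
  have hcn : c ^ n ∈ Γ := by
    rcases hn with hn | hn
    · rw [← hn]; exact γ.2
    · apply hneg
      rw [← hn]; exact γ.2
  have hcN : c ^ (N : ℤ) ∈ Γ := by
    rw [← hconj]
    exact conj_T_pow_mem_of_le N hΓ δ
  obtain ⟨d, hd⟩ : ∃ d : ℕ, d = Int.gcd n N := ⟨_, rfl⟩
  have hbez : (d : ℤ) = n * Int.gcdA n N + N * Int.gcdB n N := by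
    rw [hd]; exact Int.gcd_eq_gcd_ab _ _
  have hcd : c ^ (d : ℤ) ∈ Γ := by
    rw [hbez, zpow_add, zpow_mul, zpow_mul]
    exact mul_mem (zpow_mem hcn _) (zpow_mem hcN _)
  obtain ⟨e, he⟩ : d ∣ N := by
    have : (d : ℤ) ∣ (N : ℤ) := by rw [hd]; exact Int.gcd_dvd_right _ _
    exact_mod_cast this
  obtain ⟨k, hk⟩ : (d : ℤ) ∣ n := by rw [hd]; exact Int.gcd_dvd_left _ _
  have hform : (δ⁻¹)⁻¹ * ModularGroup.T ^ d * δ⁻¹ = c ^ (d : ℤ) := by
    rw [inv_inv, ← hconj, zpow_natCast]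
  have hmem : (δ⁻¹)⁻¹ * ModularGroup.T ^ d * δ⁻¹ ∈ Γ := by
    rw [hform]; exact hcd
  have h1 : ((χ ⟨_, hmem⟩ : ℂˣ) : ℂ) = 1 :=
    eq_one_of_par M hm f hf0 hf w hw0 hw δ⁻¹ he hmem _ (hχ ⟨_, hmem⟩)
  have h2 : c ^ (d : ℤ) ∈ stab w := by
    rw [mem_stab, ← hform]
    have := hχ ⟨_, hmem⟩
    rw [h1, one_smul] at this
    exact this
  have h3 : c ^ n ∈ stab w := by
    rw [hk, zpow_mul]
    exact zpow_mem h2 k
  have h4 : cmp (slp (γ : SL(2, ℤ))) w = w := by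
    rcases hn with hn | hn
    · rw [hn]; exact h3
    · rw [hn, cmp_neg]; exact h3
  have h5 := hχ γ
  rw [h4] at h5
  have h6 : (1 : ℂ) = ((χ γ : ℂˣ) : ℂ) :=
    Char.smul_left_cancel hw0 ((one_smul _ _).trans h5)
  exact Units.ext h6.symm

end

end Fermat.Agent.S48.An1
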