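import Fermat.Agent.S48.An1.Model
import Fermat.Agent.S48.Coh1.Glue

/-!
# S48 / An1 : the multiplicative operator of a correspondence on meromorphic functions

For a correspondence `C : Coh1.Corr Γ` whose representatives have positive determinant,
`merOp C hC w = ∏ x, w ∘ (C.rep x)`.

* `IsChar.merOp` : **transfer formula** (K5, analytic half): if `w ∘ γ = χ(γ) w` then
  `merOp w ∘ γ = (C.opMul χ)(γ) merOp w`.
-/

set_option autoImplicit false

open UpperHalfPlane Matrix.SpecialLinearGroup
open scoped MatrixGroups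

namespace Fermat.Agent.S48.An1

open Fermat.Agent.S24 Fermat.Agent.ES.An Fermat.Agent.S48.Coh1

noncomputable section

variable {Γ : Subgroup SL(2, ℤ)} (C : Corr Γ) (hC : ∀ x, 0 < (C.rep x).val.det)

/-- the representatives, in `GL₂(ℝ)⁺`. -/
def repP (x : C.X) : GLp := ⟨C.rep x, hC x⟩

theorem repP_mul_slp (γ : Γ) (x : C.X) :
    repP C hC x * slp (γ : SL(2, ℤ)) = slp (C.c γ x : SL(2, ℤ)) * repP C hC (C.perm γ x) :=
  Subtype.ext (C.spec γ x)

/-- the multiplicative operator of the correspondence `C` on `Mer`. -/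
def merOp (w : Mer) : Mer := ∏ x : C.X, cmp (repP C hC x) w

theorem merOp_one : merOp C hC 1 = 1 := by
  unfold merOp
  exact Finset.prod_eq_one fun x _ => map_one _

theorem merOp_mul (w w' : Mer) : merOp C hC (w * w') = merOp C hC w * merOp C hC w' := by
  unfold merOp
  rw [← Finset.prod_mul_distrib]
  exact Finset.prod_congr rfl fun x _ => map_mul _ _ _

theorem merOp_pow (w : Mer) (m : ℕ) : merOp C hC (w ^ m) = merOp C hC w ^ m := by
  unfold merOp
  rw [← Finset.prod_pow]
  exact Finset.prod_congr rfl fun x _ => map_pow _ _ _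

theorem merOp_ne_zero {w : Mer} (hw : w ≠ 0) : merOp C hC w ≠ 0 := by
  unfold merOp
  exact Finset.prod_ne_zero_iff.mpr fun x _ => (map_ne_zero _).mpr hw

/-- general form of the transfer formula. -/
theorem cmp_merOp (w : Mer) (γ : Γ) :
    cmp (slp (γ : SL(2, ℤ))) (merOp C hC w)
      = ∏ x : C.X, cmp (repP C hC (C.perm γ x)) (cmp (slp (C.c γ x : SL(2, ℤ))) w) := by
  unfold merOp
  rw [map_prod]
  refine Finset.prod_congr rfl fun x _ => ?_
  rw [← cmp_mul, repP_mul_slp, cmp_mul]

/-- **transfer formula.** -/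
theorem IsChar.merOp {w : Mer} {χ : Γ →* ℂˣ} (h : IsChar w χ) :
    IsChar (merOp C hC w) (C.opMul χ) := by
  intro γ
  rw [cmp_merOp]
  have key : ∀ x : C.X, cmp (repP C hC (C.perm γ x)) (cmp (slp (C.c γ x : SL(2, ℤ))) w)
      = algebraMap ℂ Mer ((χ (C.c γ x) : ℂˣ) : ℂ) * cmp (repP C hC (C.perm γ x)) w := by
    intro x
    rw [h (C.c γ x), map_smul, Algebra.smul_def]
  rw [Finset.prod_congr rfl fun x _ => key x, Finset.prod_mul_distrib, Algebra.smul_def,
    Corr.opMul_apply, Units.coe_prod, map_prod]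
  congr 1
  exact Equiv.prod_comp (C.perm γ) (fun x => cmp (repP C hC x) w)

end

end Fermat.Agent.S48.An1
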