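import Fermat.Agent.S48.An1.Data
import Fermat.Agent.S48.An1.MerOp
import Fermat.Agent.S48.An1.GoodPar
import Fermat.Agent.S48.Coh1.Gamma1

/-!
# S48 / An1 : the action of `Γ₀(M)/± Γ₁(M)` on `F1(M)` (diamond operators)

For `g ∈ Γ₀(M)`, `f ↦ f ∘ g` preserves `F1(M)` (it permutes the generators `x_{(0,a)}`): `diaG D g : F →ₐ[ℚ̄] F` with
`φ (diaG g f) = (φ f) ∘ g`; it only depends on `Gamma0Map M g ∈ (ℤ/M)ˣ`.
`dia D : (ℤ/M)ˣ →* (F ≃ₐ[ℚ̄] F)`, `dia d = diaG (sig M d)`.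
-/

set_option autoImplicit false
set_option maxHeartbeats 400000

open AlgebraicCurve ModularCurve UpperHalfPlane CongruenceSubgroup
open scoped MatrixGroups Matrix

namespace Fermat.Agent.S48.An1

open Fermat.Agent.S24 Fermat.Agent.ES Fermat.Agent.ES.An Fermat.Agent.S48.Coh1
open Fermat.Agent.S48.B1 (QField)

noncomputable section

/-! ### induction principle for a `QField` -/

theorem QField.gens_subset (Q : QField) {x : LaurentSeries Qb} (hx : x ∈ Q.gens) : x ∈ Q.E := by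
  rw [Q.E_eq]
  exact IntermediateField.subset_adjoin _ _ hx

theorem QField.induction (Q : QField) {P : Q.F → Prop}
    (hgen : ∀ (x : LaurentSeries Qb) (hx : x ∈ Q.gens), P ⟨x, QField.gens_subset Q hx⟩)
    (hc : ∀ c : Qb, P (algebraMap Qb Q.F c)) (hadd : ∀ f g, P f → P g → P (f + g))
    (hmul : ∀ f g, P f → P g → P (f * g)) (hinv : ∀ f, P f → P f⁻¹) (f : Q.F) : P f := by
  obtain ⟨x, hx⟩ := f
  have hx' : x ∈ IntermediateField.adjoin Qb Q.gens := Q.E_eq ▸ hx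
  have hE : ∀ y, y ∈ IntermediateField.adjoin Qb Q.gens → y ∈ Q.E := fun y hy => Q.E_eq ▸ hy
  revert hx
  induction hx' using IntermediateField.adjoin_induction with
  | mem x hx => exact fun _ => hgen x hx
  | algebraMap c => exact fun _ => hc c
  | add x y hx hy ihx ihy =>
    exact fun _ => hadd ⟨x, hE _ hx⟩ ⟨y, hE _ hy⟩ (ihx (hE _ hx)) (ihy (hE _ hy))
  | inv x hx ih => exact fun _ => hinv ⟨x, hE _ hx⟩ (ih (hE _ hx))
  | mul x y hx hy ihx ihy =>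
    exact fun _ => hmul ⟨x, hE _ hx⟩ ⟨y, hE _ hy⟩ (ihx (hE _ hx)) (ihy (hE _ hy))

variable {M : ℕ} [NeZero M]

/-! ### the generators -/

theorem zero_cons_vecMul (g : Gamma0 M) (a : ZMod M) :
    (![0, a] : Fin 2 → ZMod M) ᵥ* ((g : SL(2, ℤ)) : SL(2, ZMod M)).1 = ![0, a * Gamma0Map M g] := by
  have h10 : (((g : SL(2, ℤ)) 1 0 : ℤ) : ZMod M) = 0 := Gamma0_mem.mp g.2
  ext i
  fin_cases i
  · simp [Matrix.vecMul, dotProduct, Fin.sum_univ_two, h10]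
  · simp [Matrix.vecMul, dotProduct, Fin.sum_univ_two, Gamma0Map]

theorem cmp_XMer (g : Gamma0 M) (a : ZMod M) :
    cmp (slp (g : SL(2, ℤ))) (XMer M a) = XMer M (a * Gamma0Map M g) := by
  unfold XMer
  rw [cmp_algebraMap]
  refine congrArg _ (Subtype.ext ?_)
  funext τ
  rw [cmpHol_apply, slp_smul]
  show EIS.Xf M ![0, a] ((g : SL(2, ℤ)) • τ) = EIS.Xf M ![0, a * Gamma0Map M g] τ
  rw [EIS.Xf_smul, zero_cons_vecMul]

/-- for a `Γ₁(M)`-invariant function, `u ∘ g` (`g ∈ Γ₀(M)`) depends only on `Gamma0Map g`. -/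
theorem cmp_eq_of_Gamma0Map_eq {u : Mer} (hu : ∀ γ : Gamma1 M, cmp (slp (γ : SL(2, ℤ))) u = u)
    {g g' : Gamma0 M} (h : Gamma0Map M g = Gamma0Map M g') :
    cmp (slp (g : SL(2, ℤ))) u = cmp (slp (g' : SL(2, ℤ))) u := by
  have h1 : ((g * g'⁻¹ : Gamma0 M) : SL(2, ℤ)) ∈ Gamma1 M := by
    rw [mem_Gamma1_iff]
    apply (Gamma0Map_isUnit M g').mul_right_cancel
    rw [← map_mul, inv_mul_cancel_right, one_mul, h]
  have h2 := hu ⟨_, h1⟩
  have h3 : (g : SL(2, ℤ)) = ((g * g'⁻¹ : Gamma0 M) : SL(2, ℤ)) * (g' : SL(2, ℤ)) := by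
    rw [← Subgroup.coe_mul, inv_mul_cancel_right]
  rw [h3, map_mul, cmp_mul, h2]

variable (D : X1Data M)

/-! ### the action of `Γ₀(M)` -/

theorem exists_cmp (g : Gamma0 M) (f : (X1.F1Q M).F) :
    ∃ f' : (X1.F1Q M).F, D.φ f' = cmp (slp (g : SL(2, ℤ))) (D.φ f) := by
  induction f using QField.induction with
  | hgen x hx =>
    rcases hx with rfl | ⟨a, rfl⟩
    · exact ⟨⟨jqModC Qb, X1.jq_mem M⟩, by
        rw [show D.φ ⟨jqModC Qb, X1.jq_mem M⟩ = jMer from D.φ_jq]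
        exact (cmp_jMer _).symm⟩
    · obtain ⟨d, hd⟩ := Gamma0Map_isUnit M g
      refine ⟨⟨X1.xg M ((a * d : (ZMod M)ˣ) : ZMod M), X1.xg_mem M (a * d)⟩, ?_⟩
      rw [show D.φ ⟨X1.xg M ((a * d : (ZMod M)ˣ) : ZMod M), X1.xg_mem M (a * d)⟩ = _ from
        D.φ_xg (a * d)]
      refine Eq.trans ?_ (congrArg _ (D.φ_xg a)).symm
      rw [cmp_XMer, ← hd, Units.val_mul]
  | hc c => exact ⟨algebraMap Qb _ c, by rw [X1Data.φ, D.B.φ_alg, AlgHom.commutes]⟩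
  | hadd f g hf hg =>
    obtain ⟨f', hf'⟩ := hf
    obtain ⟨g', hg'⟩ := hg
    exact ⟨f' + g', by rw [RingHom.map_add, RingHom.map_add, map_add, hf', hg']⟩
  | hmul f g hf hg =>
    obtain ⟨f', hf'⟩ := hf
    obtain ⟨g', hg'⟩ := hg
    exact ⟨f' * g', by rw [map_mul, map_mul, map_mul, hf', hg']⟩
  | hinv f hf =>
    obtain ⟨f', hf'⟩ := hf
    exact ⟨f'⁻¹, by rw [map_inv₀, map_inv₀, map_inv₀, hf']⟩

/-- `f ↦ f ∘ g`. -/
def diaFun (g : Gamma0 M) (f : (X1.F1Q M).F) : (X1.F1Q M).F := (exists_cmp D g f).choose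

theorem φ_diaFun (g : Gamma0 M) (f : (X1.F1Q M).F) :
    D.φ (diaFun D g f) = cmp (slp (g : SL(2, ℤ))) (D.φ f) := (exists_cmp D g f).choose_spec

/-- `f ↦ f ∘ g`, `g ∈ Γ₀(M)`, as an endomorphism of `F1(M)`. -/
def diaG (g : Gamma0 M) : (X1.F1Q M).F →ₐ[Qb] (X1.F1Q M).F where
  toFun := diaFun D g
  map_one' := D.φ_injective (by rw [φ_diaFun, map_one, map_one])
  map_mul' a b := D.φ_injective (by rw [φ_diaFun, map_mul, map_mul, map_mul, φ_diaFun, φ_diaFun])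
  map_zero' := D.φ_injective (by rw [φ_diaFun, map_zero, map_zero])
  map_add' a b := D.φ_injective (by
    rw [φ_diaFun, RingHom.map_add, map_add, RingHom.map_add, φ_diaFun, φ_diaFun])
  commutes' c := D.φ_injective (by rw [φ_diaFun, X1Data.φ, D.B.φ_alg, AlgHom.commutes])

theorem φ_diaG (g : Gamma0 M) (f : (X1.F1Q M).F) :
    D.φ (diaG D g f) = cmp (slp (g : SL(2, ℤ))) (D.φ f) := φ_diaFun D g f

theorem diaG_eq_comp {g g₁ g₂ : Gamma0 M} (h : Gamma0Map M g = Gamma0Map M g₁ * Gamma0Map M g₂)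
    (f : (X1.F1Q M).F) : diaG D g f = diaG D g₁ (diaG D g₂ f) := by
  apply D.φ_injective
  rw [φ_diaG, φ_diaG, φ_diaG, ← cmp_mul, ← map_mul, ← Subgroup.coe_mul]
  exact cmp_eq_of_Gamma0Map_eq (fun γ => D.inv1 γ f) (by rw [h, map_mul, mul_comm])

theorem diaG_eq_self {g : Gamma0 M} (h : Gamma0Map M g = 1) (f : (X1.F1Q M).F) :
    diaG D g f = f := by
  apply D.φ_injective
  rw [φ_diaG]
  exact D.inv1 ⟨g, (mem_Gamma1_iff M g).2 h⟩ f

/-- the diamond operator `⟨d⟩` on `F1(M)`. -/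
def diaE (d : (ZMod M)ˣ) : (X1.F1Q M).F ≃ₐ[Qb] (X1.F1Q M).F :=
  AlgEquiv.ofAlgHom (diaG D (sig M d)) (diaG D (sig M d⁻¹))
    (AlgHom.ext fun f => by
      rw [AlgHom.comp_apply, ← diaG_eq_comp D (g := 1) (by simp), AlgHom.id_apply]
      exact diaG_eq_self D (map_one _) f)
    (AlgHom.ext fun f => by
      rw [AlgHom.comp_apply, ← diaG_eq_comp D (g := 1) (by simp), AlgHom.id_apply]
      exact diaG_eq_self D (map_one _) f)

theorem diaE_apply (d : (ZMod M)ˣ) (f : (X1.F1Q M).F) : diaE D d f = diaG D (sig M d) f := rfl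

/-- **The diamond operators on `F1(M)`.** -/
def dia : (ZMod M)ˣ →* ((X1.F1Q M).F ≃ₐ[Qb] (X1.F1Q M).F) where
  toFun := diaE D
  map_one' := AlgEquiv.ext fun f => by
    rw [diaE_apply]
    exact diaG_eq_self D (by simp) f
  map_mul' d d' := AlgEquiv.ext fun f => by
    rw [AlgEquiv.mul_apply, diaE_apply, diaE_apply, diaE_apply]
    exact diaG_eq_comp D (by simp) f

theorem φ_dia (d : (ZMod M)ˣ) (f : (X1.F1Q M).F) :
    D.φ (dia D d f) = cmp (slp (sig M d : SL(2, ℤ))) (D.φ f) := φ_diaG D _ f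

theorem dia_jq (d : (ZMod M)ˣ) :
    dia D d ⟨jqModC Qb, X1.jq_mem M⟩ = ⟨jqModC Qb, X1.jq_mem M⟩ := by
  apply D.φ_injective
  rw [φ_dia, show D.φ ⟨jqModC Qb, X1.jq_mem M⟩ = jMer from D.φ_jq, cmp_jMer]

theorem dia_xg (d a : (ZMod M)ˣ) :
    dia D d ⟨X1.xg M (a : ZMod M), X1.xg_mem M a⟩
      = ⟨X1.xg M ((a * d : (ZMod M)ˣ) : ZMod M), X1.xg_mem M (a * d)⟩ := by
  apply D.φ_injective
  rw [φ_dia, show D.φ ⟨X1.xg M (a : ZMod M), X1.xg_mem M a⟩ = _ from D.φ_xg a,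
    show D.φ ⟨X1.xg M ((a * d : (ZMod M)ˣ) : ZMod M), X1.xg_mem M (a * d)⟩ = _ from D.φ_xg (a * d),
    cmp_XMer, Gamma0Map_sig, Units.val_mul]

/-- **the diamond operators commute with the Galois action.** -/
theorem dia_gal (d : (ZMod M)ˣ) (σ : GQ) (f : (X1.F1Q M).F) :
    dia D d ((X1.F1Q M).galF σ f) = (X1.F1Q M).galF σ (dia D d f) := by
  induction f using QField.induction with
  | hgen x hx =>
    rcases hx with rfl | ⟨a, rfl⟩
    · have h1 : (X1.F1Q M).galF σ ⟨jqModC Qb, X1.jq_mem M⟩ = ⟨jqModC Qb, X1.jq_mem M⟩ :=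
        Subtype.ext (coeffMap_jqModC _)
      exact (congrArg _ h1).trans ((dia_jq D d).trans
        (h1.symm.trans (congrArg _ (dia_jq D d).symm)))
    · obtain ⟨c, hc, hσ⟩ := X1.exists_gal_zM (M := M) σ
      have h1 : ∀ b : (ZMod M)ˣ, (X1.F1Q M).galF σ ⟨X1.xg M (b : ZMod M), X1.xg_mem M b⟩
          = ⟨X1.xg M ((ZMod.unitOfCoprime c hc * b : (ZMod M)ˣ) : ZMod M), X1.xg_mem M _⟩ :=
        fun b => Subtype.ext (X1.coeffMap_xg σ hσ _)
      refine (congrArg _ (h1 a)).trans ((dia_xg D d _).trans ?_)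
      refine Eq.trans ?_ (congrArg _ (dia_xg D d a).symm)
      rw [h1, mul_assoc]
  | hc c =>
    rw [QField.galF_algebraMap, AlgEquiv.commutes, AlgEquiv.commutes, QField.galF_algebraMap]
  | hadd f g hf hg => rw [map_add, map_add, map_add, map_add, hf, hg]
  | hmul f g hf hg => rw [map_mul, map_mul, map_mul, map_mul, hf, hg]
  | hinv f hf => rw [map_inv₀, map_inv₀, map_inv₀, map_inv₀, hf]

end

end Fermat.Agent.S48.An1
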