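import Fermat.Agent.S48.An1.MerOp
import Fermat.Agent.S48.X1.Forms
import Fermat.Agent.S48.Coh1.Main
import Fermat.Prelude.Thm_ModularFormClass_isBoundedAt_heckeU

/-!
# S48 / An1 : the multiplicative operator of a correspondence preserves quotients of modular forms

`u = A / B`, `A B ∈ M_k(G)`  ⟹  `merOp C u = (∏ x, A ∣[k] rep x) / (∏ x, B ∣[k] rep x)`, and `∏ x, A ∣[k] rep x ∈ M_{k |X|}(G)`:
* invariance under `Γ`: `C.spec` (the factors are permuted), under `-1`: `-1` is central and `-1 ∈ G`;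
* boundedness at the cusps: the representatives are rational matrices
  (`P2MW.S_ModularFormClass_isBoundedAt_heckeU.ModularForm.S06W2.isBoundedAt_slash_ratCast`).

TASKS: S48/An1-SlP (section SlP), S48/An1-ProdMF (section ProdMF), S48/An1-RatT1 (section T1).
-/

set_option autoImplicit false
set_option maxHeartbeats 400000

open UpperHalfPlane ModularForm CongruenceSubgroup Matrix.SpecialLinearGroup
open scoped MatrixGroups ModularForm Manifold

namespace Fermat.Agent.S48.An1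

open Fermat.Agent.S24 Fermat.Agent.ES.An Fermat.Agent.S48.Coh1

noncomputable section

/-! ### slash by an element of `GL₂(ℝ)⁺` (TASK S48/An1-SlP)
Model: `ES/An/MkMF.lean` (`slHol`, `slHol_apply`, `slHol_ne_zero`, `cmpHol_mul_slHol`, `cmp_div_eq`), with `g : SL(2, ℤ)` replaced
by `α : GLp`; `ModularForm.slash_apply`, `UpperHalfPlane.σ` is the identity for positive determinant. -/

section SlP

/-- the slash of a holomorphic function by `α ∈ GL₂(ℝ)⁺`, as an element of `Hol`. -/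
def slP (k : ℤ) (α : GLp) (F : Hol) : Hol :=
  ⟨(F : ℍ → ℂ) ∣[k] (α : GL (Fin 2) ℝ), F.2.slash k _⟩

theorem coe_slP (k : ℤ) (α : GLp) (F : Hol) :
    (slP k α F : ℍ → ℂ) = (F : ℍ → ℂ) ∣[k] (α : GL (Fin 2) ℝ) := rfl

theorem slP_apply (k : ℤ) (α : GLp) (F : Hol) (τ : ℍ) :
    (slP k α F : ℍ → ℂ) τ = (F : ℍ → ℂ) (α • τ)
      * (((α : GL (Fin 2) ℝ).det.val : ℝ) : ℂ) ^ (k - 1) * denom (α : GL (Fin 2) ℝ) τ ^ (-k) := by
  have hα : 0 < (α : GL (Fin 2) ℝ).det.val := α.2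
  rw [coe_slP, ModularForm.slash_apply, abs_of_pos hα]
  have hσ : σ (α : GL (Fin 2) ℝ) = .refl ℝ ℂ := by
    unfold UpperHalfPlane.σ
    rw [if_pos hα]
  rw [hσ]
  rfl

theorem slP_ne_zero (k : ℤ) (α : GLp) {F : Hol} (hF : F ≠ 0) : slP k α F ≠ 0 := by
  intro h
  apply hF
  apply Subtype.ext
  funext τ
  have hα : 0 < (α : GL (Fin 2) ℝ).det.val := α.2
  have h1 := congrFun (congrArg Subtype.val h) (α⁻¹ • τ)
  rw [slP_apply, smul_inv_smul] at h1
  have h2 := (mul_eq_zero.mp h1).resolve_right (zpow_ne_zero _ (denom_ne_zero _ _))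
  exact (mul_eq_zero.mp h2).resolve_right
    (zpow_ne_zero _ (Complex.ofReal_ne_zero.mpr hα.ne'))

/-- cross multiplication: `(F ∘ α) * (G ∣ α) = (F ∣ α) * (G ∘ α)`. -/
theorem cmpHol_mul_slP (k : ℤ) (α : GLp) (F G : Hol) :
    cmpHol α F * slP k α G = slP k α F * cmpHol α G := by
  apply Subtype.ext
  funext τ
  show (cmpHol α F : ℍ → ℂ) τ * (slP k α G : ℍ → ℂ) τ
    = (slP k α F : ℍ → ℂ) τ * (cmpHol α G : ℍ → ℂ) τ
  rw [cmpHol_apply, cmpHol_apply, slP_apply, slP_apply]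
  ring

/-- `(F / G) ∘ α = (F ∣ α) / (G ∣ α)`. -/
theorem cmp_div_eq_slP (k : ℤ) (α : GLp) (F G : Hol) (hG : G ≠ 0) :
    cmp α (algebraMap Hol Mer F / algebraMap Hol Mer G)
      = algebraMap Hol Mer (slP k α F) / algebraMap Hol Mer (slP k α G) := by
  have hinj := IsFractionRing.injective Hol Mer
  have h1 : algebraMap Hol Mer (cmpHol α G) ≠ 0 := by
    rw [Ne, map_eq_zero_iff _ hinj]
    intro h
    exact hG (cmpHol_injective α (by rw [h, map_zero]))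
  have h2 : algebraMap Hol Mer (slP k α G) ≠ 0 := by
    rw [Ne, map_eq_zero_iff _ hinj]
    exact slP_ne_zero k α hG
  rw [map_div₀, cmp_algebraMap, cmp_algebraMap, div_eq_div_iff h1 h2, ← map_mul, ← map_mul,
    cmpHol_mul_slP]

variable {Γ : Subgroup SL(2, ℤ)} (C : Corr Γ) (hC : ∀ x, 0 < (C.rep x).val.det)

theorem merOp_div (k : ℤ) (A B : Hol) (hB : B ≠ 0) :
    merOp C hC (algebraMap Hol Mer A / algebraMap Hol Mer B)
      = algebraMap Hol Mer (∏ x : C.X, slP k (repP C hC x) A)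
        / algebraMap Hol Mer (∏ x : C.X, slP k (repP C hC x) B) := by
  unfold merOp
  rw [map_prod, map_prod, ← Finset.prod_div_distrib]
  exact Finset.prod_congr rfl fun x _ => cmp_div_eq_slP k _ A B hB

theorem coe_prod_slP (k : ℤ) (A : Hol) :
    ((∏ x : C.X, slP k (repP C hC x) A : Hol) : ℍ → ℂ) = ∏ x : C.X, (A : ℍ → ℂ) ∣[k] C.rep x := by
  have h := map_prod (Hol.val : Hol →ₐ[ℂ] (ℍ → ℂ)) (fun x : C.X => slP k (repP C hC x) A)
    Finset.univ
  exact h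

theorem prod_slP_ne_zero (k : ℤ) {B : Hol} (hB : B ≠ 0) :
    (∏ x : C.X, slP k (repP C hC x) B) ≠ 0 :=
  Finset.prod_ne_zero_iff.mpr fun _ _ => slP_ne_zero k _ hB

end SlP

/-! ### products of translates of a modular form (TASK S48/An1-ProdMF) -/

section ProdMF

/-- (`ModularForm.mul_slash_SL2`, induction). -/
theorem prod_slash_SL {ι : Type*} (s : Finset ι) (k : ι → ℤ) (F : ι → ℍ → ℂ) (g : SL(2, ℤ)) :
    (∏ i ∈ s, F i) ∣[∑ i ∈ s, k i] g = ∏ i ∈ s, (F i ∣[k i] g) := by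
  classical
  induction s using Finset.induction_on with
  | empty => simpa using ModularForm.is_invariant_one g
  | insert a s ha ih =>
    rw [Finset.prod_insert ha, Finset.sum_insert ha, Finset.prod_insert ha,
      ModularForm.mul_slash_SL2, ih]

/-- a translate of a modular form by a rational matrix is bounded at all cusps
(`isBoundedAt_slash_ratCast` at the cusp `g • ∞`, `OnePoint.isBoundedAt_iff_forall_SL2Z`,
`Subgroup.IsArithmetic.isCusp_iff_isCusp_SL2Z`; see the proof of `ES.An.isMF_of`, `IsMF_bdd_slash`). -/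
theorem bdd_slash_rat {G : Subgroup SL(2, ℤ)} [G.FiniteIndex] {k : ℤ} {A : ℍ → ℂ}
    (hA : X1.IsMF G k A) (α : GL (Fin 2) ℚ) (g : SL(2, ℤ)) :
    IsBoundedAtImInfty ((A ∣[k] (Matrix.GeneralLinearGroup.map (Rat.castHom ℝ) α)) ∣[k] g) := by
  obtain ⟨f, rfl⟩ := hA
  have hc : IsCusp (mapGL ℝ g • OnePoint.infty) (X1.GR G) := by
    rw [Subgroup.IsArithmetic.isCusp_iff_isCusp_SL2Z, isCusp_SL2Z_iff']
    exact ⟨g, rfl⟩
  exact P2MW.S_ModularFormClass_isBoundedAt_heckeU.ModularForm.S06W2.isBoundedAt_slash_ratCast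
    f α hc (mapGL ℝ g) rfl

/-- finite products of holomorphic functions are holomorphic. -/
theorem prodMF_mdiff {ι : Type*} (s : Finset ι) (F : ι → ℍ → ℂ) (h : ∀ i ∈ s, MDiff (F i)) :
    MDiff (∏ i ∈ s, F i) := by
  classical
  induction s using Finset.induction_on with
  | empty =>
    rw [Finset.prod_empty]
    exact mdifferentiable_const
  | insert a s ha ih =>
    rw [Finset.prod_insert ha]
    exact (h a (Finset.mem_insert_self a s)).mul (ih fun i hi => h i (Finset.mem_insert_of_mem hi))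

/-- finite products of functions bounded at `i∞` are bounded at `i∞`. -/
theorem prodMF_bdd {ι : Type*} (s : Finset ι) (F : ι → ℍ → ℂ)
    (h : ∀ i ∈ s, IsBoundedAtImInfty (F i)) : IsBoundedAtImInfty (∏ i ∈ s, F i) := by
  classical
  induction s using Finset.induction_on with
  | empty =>
    rw [Finset.prod_empty]
    exact Filter.const_boundedAtFilter _ (1 : ℂ)
  | insert a s ha ih =>
    rw [Finset.prod_insert ha]
    exact Filter.BoundedAtFilter.mul (h a (Finset.mem_insert_self a s))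
      (ih fun i hi => h i (Finset.mem_insert_of_mem hi))

/-- `mapGL ℝ (-1)` is central. -/
theorem prodMF_neg_one_comm (g : GL (Fin 2) ℝ) :
    g * mapGL ℝ (-1 : SL(2, ℤ)) = mapGL ℝ (-1 : SL(2, ℤ)) * g := by
  apply Units.ext
  simp [Matrix.SpecialLinearGroup.mapGL_coe_matrix]

variable {Γ G : Subgroup SL(2, ℤ)} [G.FiniteIndex] (C : Corr Γ)

/-- `∏ x, A ∣[k] rep x` is a modular form on `G = ± Γ` (use `X1.isMF_of`).
Invariance under `γ ∈ Γ`: `prod_slash_SL`, `(A ∣ rep x) ∣ γ = (A ∣ c γ x) ∣ rep (perm γ x) = A ∣ rep (perm γ x)`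
(`C.spec`, `X1.IsMF_slash_eq`, `c γ x ∈ Γ ≤ G`), `Equiv.prod_comp (C.perm γ)`.  Under `-γ`, `γ ∈ Γ`:
`mapGL ℝ (-1)` is central in `GL₂(ℝ)` and `A ∣ (-1) = A`. -/
theorem isMF_prod_slash (hrat : ∀ x, ∃ α : GL (Fin 2) ℚ,
      C.rep x = Matrix.GeneralLinearGroup.map (Rat.castHom ℝ) α)
    (hΓG : Γ ≤ G) (hneg : (-1 : SL(2, ℤ)) ∈ G) (hG : ∀ γ ∈ G, γ ∈ Γ ∨ -γ ∈ Γ)
    {k : ℤ} {A : ℍ → ℂ} (hA : X1.IsMF G k A) :
    X1.IsMF G (∑ _x : C.X, k) (∏ x : C.X, A ∣[k] C.rep x) := by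
  -- invariance under `Γ`
  have hinv : ∀ δ : Γ, ∏ x : C.X, ((A ∣[k] C.rep x) ∣[k] (δ : SL(2, ℤ))) = ∏ x : C.X, A ∣[k] C.rep x := by
    intro δ
    rw [← Equiv.prod_comp (C.perm δ) (fun x => A ∣[k] C.rep x)]
    refine Finset.prod_congr rfl fun x _ => ?_
    have h1 : (A ∣[k] C.rep x) ∣[k] (δ : SL(2, ℤ)) = A ∣[k] (C.rep x * mapGL ℝ (δ : SL(2, ℤ))) := by
      rw [SlashAction.slash_mul]
      rfl
    have h2 : A ∣[k] (mapGL ℝ (C.c δ x : SL(2, ℤ))) = A :=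
      X1.IsMF_slash_eq hA ⟨(C.c δ x : SL(2, ℤ)), hΓG (C.c δ x).2⟩
    rw [h1, C.spec, SlashAction.slash_mul, h2]
  have hneg1 : A ∣[k] (mapGL ℝ (-1 : SL(2, ℤ))) = A := X1.IsMF_slash_eq hA ⟨-1, hneg⟩
  refine X1.isMF_of _ _ (prodMF_mdiff _ _ fun x _ => hA.mdiff.slash k _) ?_ ?_
  · intro γ
    rw [prod_slash_SL]
    rcases hG γ γ.2 with h | h
    · exact hinv ⟨γ, h⟩
    · rw [← hinv ⟨-γ, h⟩]
      refine Finset.prod_congr rfl fun x _ => ?_
      have e : mapGL ℝ (γ : SL(2, ℤ)) = mapGL ℝ (-1 : SL(2, ℤ)) * mapGL ℝ (-(γ : SL(2, ℤ))) := by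
        rw [← map_mul]
        congr 1
        simp
      have h1 : (A ∣[k] C.rep x) ∣[k] (γ : SL(2, ℤ))
          = A ∣[k] (C.rep x * mapGL ℝ (γ : SL(2, ℤ))) := by
        rw [SlashAction.slash_mul]
        rfl
      have h2 : (A ∣[k] C.rep x) ∣[k] (-(γ : SL(2, ℤ)))
          = (A ∣[k] C.rep x) ∣[k] (mapGL ℝ (-(γ : SL(2, ℤ)))) := rfl
      show (A ∣[k] C.rep x) ∣[k] (γ : SL(2, ℤ)) = (A ∣[k] C.rep x) ∣[k] (-(γ : SL(2, ℤ)))
      rw [h1, h2, e, ← mul_assoc, prodMF_neg_one_comm, mul_assoc, SlashAction.slash_mul, hneg1,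
        SlashAction.slash_mul]
  · intro g
    rw [prod_slash_SL]
    refine prodMF_bdd _ _ fun x _ => ?_
    obtain ⟨α, hα⟩ := hrat x
    rw [hα]
    exact bdd_slash_rat hA α g

end ProdMF

/-- **`merOp` preserves quotients of modular forms.** -/
theorem IsMFr.merOp {Γ G : Subgroup SL(2, ℤ)} [G.FiniteIndex] (C : Corr Γ)
    (hC : ∀ x, 0 < (C.rep x).val.det)
    (hrat : ∀ x, ∃ α : GL (Fin 2) ℚ, C.rep x = Matrix.GeneralLinearGroup.map (Rat.castHom ℝ) α)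
    (hΓG : Γ ≤ G) (hneg : (-1 : SL(2, ℤ)) ∈ G) (hG : ∀ γ ∈ G, γ ∈ Γ ∨ -γ ∈ Γ)
    {u : Mer} (hu : X1.IsMFr G u) : X1.IsMFr G (merOp C hC u) := by
  obtain ⟨k, A, B, hA, hB, hB0, rfl⟩ := hu
  refine ⟨∑ _x : C.X, k, ∏ x : C.X, slP k (repP C hC x) A, ∏ x : C.X, slP k (repP C hC x) B, ?_, ?_,
    prod_slP_ne_zero C hC k hB0, merOp_div C hC k A B hB0⟩
  · rw [coe_prod_slP]
    exact isMF_prod_slash C hrat hΓG hneg hG hA
  · rw [coe_prod_slP]
    exact isMF_prod_slash C hrat hΓG hneg hG hB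

/-! ### the case of `T_p` on `Γ₁(M)` (TASK S48/An1-RatT1) -/

section T1

variable (M : ℕ) [NeZero M]

instance finiteIndex_Gpm : (Gpm M).FiniteIndex :=
  Subgroup.finiteIndex_of_le (Gamma1_le_Gpm M)

/-- (`repT = mapGL ℝ (sT x) * heckeRep p x`; `mapGL ℝ g = map (Rat.castHom ℝ) (mapGL ℚ g)`;
`P2MW.S_ModularFormClass_isBoundedAt_heckeU.ModularForm.S06W2.exists_heckeMatrix_eq_map`, `exists_heckeDiagMatrix_eq_map`.) -/
theorem exists_repT_eq_map (p : ℕ) [Fact p.Prime] (hpM : ¬ p ∣ M) (x : OnePoint (ZMod p)) :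
    ∃ α : GL (Fin 2) ℚ, repT M p hpM x = Matrix.GeneralLinearGroup.map (Rat.castHom ℝ) α := by
  have hSL : ∀ g : SL(2, ℤ),
      mapGL ℝ g = Matrix.GeneralLinearGroup.map (Rat.castHom ℝ) (mapGL ℚ g) := by
    intro g
    ext i j
    simp [mapGL_coe_matrix]
  induction x using OnePoint.rec with
  | infty =>
    obtain ⟨α, hα⟩ :=
      P2MW.S_ModularFormClass_isBoundedAt_heckeU.ModularForm.S06W2.exists_heckeDiagMatrix_eq_map p
    exact ⟨mapGL ℚ (sig M (unitP M p hpM) : SL(2, ℤ)) * α, by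
      rw [repT_infty, hα, hSL, map_mul]⟩
  | coe b =>
    obtain ⟨α, hα⟩ :=
      P2MW.S_ModularFormClass_isBoundedAt_heckeU.ModularForm.S06W2.exists_heckeMatrix_eq_map p b.val
    exact ⟨α, by rw [repT_coe, hα]⟩

theorem isMFr_merOp_T1 (p : ℕ) [Fact p.Prime] (hpM : ¬ p ∣ M) {u : Mer}
    (hu : X1.IsMFr (Gpm M) u) :
    X1.IsMFr (Gpm M) (merOp (T1 M p hpM) (det_repT_pos M p hpM) u) :=
  IsMFr.merOp (T1 M p hpM) _ (exists_repT_eq_map M p hpM) (Gamma1_le_Gpm M) (neg_one_mem_Gpm M)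
    (fun _ h => h) hu

end T1

end

end Fermat.Agent.S48.An1
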