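import Fermat.Agent.ES.An.HeckeLau
import Fermat.Agent.S48.B1.Hecke

/-!
# S48 / An1 : `q`-expansion of the multiplicative Hecke operator with nebentypus

`hasLau_hecke2_of` : if `u'`, `u` have `q`-expansions `x'`, `x` then
`u'(ℓ τ) * ∏_j u((τ + j)/ℓ)` has `q`-expansion `B1.hecke2 ℓ x' x = x'(q^ℓ) * ∏_{z^ℓ=1} x(z q^{1/ℓ})`.
-/

set_option autoImplicit false

open AlgebraicCurve ModularCurve UpperHalfPlane
open scoped MatrixGroups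

namespace Fermat.Agent.S48.An1

open Fermat.Agent.S24 Fermat.Agent.ES Fermat.Agent.ES.An

noncomputable section

/-- `u(ℓ τ)` has `q`-expansion `x(q^ℓ)`. -/
theorem hasLau_cmp_inf (ℓ : ℕ) [NeZero ℓ] (αinf : GLp)
    (hinf : ∀ τ : ℍ, ((αinf • τ : ℍ) : ℂ) = (ℓ : ℂ) * τ)
    (u : Mer) (x : LaurentSeries ℂ) (hu : HasLau 1 u x) :
    HasLau 1 (cmp αinf u) (Vq ℂ ℓ x) := by
  obtain ⟨v, rfl, rfl⟩ := hu
  obtain ⟨a, b, hb, rfl⟩ := IsFractionRing.div_surjective (A := HolCusp 1) v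
  have key : ∀ a : HolCusp 1, HasLau 1 (cmp αinf (algebraMap Hol Mer (cuspIncl 1 a)))
      (Vq ℂ ℓ (laurent 1 a)) := by
    intro a
    obtain ⟨g0, hg0, hg0l⟩ := HeckeLau.exists_comp αinf ℓ 1 0 1 ℓ one_ne_zero (by ring)
      (fun τ => by rw [hinf]; simp) a
    rw [HeckeLau.expU_zero, twist_one] at hg0l
    have e : cmp αinf (algebraMap Hol Mer (cuspIncl 1 a)) = algebraMap Hol Mer (cuspIncl 1 g0) := by
      rw [cmp_algebraMap]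
      refine congrArg _ (Subtype.ext ?_)
      exact hg0.symm
    rw [e, ← hg0l]
    exact HeckeLau.hasLau_of_holCusp g0
  simp only [map_div₀, cuspToMer_algebraMap, lauC_algebraMap]
  exact (key a).div (key b)

/-- `∏_j u((τ + j)/ℓ)` has `q`-expansion `∏_{z^ℓ=1} x(z q^{1/ℓ})`. -/
theorem hasLau_prod_cmp (ℓ : ℕ) [NeZero ℓ] (αinf : GLp) (α : ZMod ℓ → GLp)
    (hinf : ∀ τ : ℍ, ((αinf • τ : ℍ) : ℂ) = (ℓ : ℂ) * τ)
    (hα : ∀ (j : ZMod ℓ) (τ : ℍ), ((α j • τ : ℍ) : ℂ) = ((τ : ℂ) + (j.val : ℕ)) / ℓ)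
    (u : Mer) (x : LaurentSeries ℂ) (hu : HasLau 1 u x) (hu0 : u ≠ 0) :
    HasLau 1 (∏ j : ZMod ℓ, cmp (α j) u) (normSer ℓ x) := by
  have h1 := hasLau_hecke_of ℓ αinf α hinf hα u x hu
  have h2 := hasLau_cmp_inf ℓ αinf hinf u x hu
  have h3 := h1.div h2
  have hc : cmp αinf u ≠ 0 := (map_ne_zero _).mpr hu0
  have hx : Vq ℂ ℓ x ≠ 0 := by
    intro h0
    rw [h0] at h2
    exact hc (h2.eq_of_eq (by simpa using hasLau_const 1 0))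
  rw [mul_div_cancel_left₀ _ hc, heckeSer, mul_div_cancel_left₀ _ hx] at h3
  exact h3

/-- **`q`-expansion of `T_p` with nebentypus.** -/
theorem hasLau_hecke2_of (ℓ : ℕ) [NeZero ℓ] (αinf : GLp) (α : ZMod ℓ → GLp)
    (hinf : ∀ τ : ℍ, ((αinf • τ : ℍ) : ℂ) = (ℓ : ℂ) * τ)
    (hα : ∀ (j : ZMod ℓ) (τ : ℍ), ((α j • τ : ℍ) : ℂ) = ((τ : ℂ) + (j.val : ℕ)) / ℓ)
    (u' u : Mer) (x' x : LaurentSeries ℂ) (hu' : HasLau 1 u' x') (hu : HasLau 1 u x)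
    (hu0 : u ≠ 0) :
    HasLau 1 (cmp αinf u' * ∏ j : ZMod ℓ, cmp (α j) u) (B1.hecke2 ℓ x' x) :=
  (hasLau_cmp_inf ℓ αinf hinf u' x' hu').mul (hasLau_prod_cmp ℓ αinf α hinf hα u x hu hu0)

end

end Fermat.Agent.S48.An1
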