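import Fermat.Agent.S48.An1.MerOp
import Fermat.Agent.S48.An1.Lau2
import Fermat.Agent.S48.Coh1.Main

/-!
# S48 / An1 / HeckeT1 : `merOp` for the correspondences `T_p`, `⟨d⟩` on `Γ₁(M)`   (complements `MerOp.lean`, `Lau2.lean`)

* generic: `merOp_inv`, `merOp_const`, `cmp_merOp_of_invariant` (`Γ`-invariant ↦ `Γ`-invariant), `exists_root_merOp` (= (K5), abstract form);
* `merOp_D1`, `merOp_inr` : `merOp ⟨d⟩ u = u ∘ sig M d`;
* `merOp_T1`              : `merOp T_p u = (u ∘ sig M p)(pτ) * ∏_j u((τ+j)/p)`;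
* `hasLau_merOp_T1`, `hasLau_merOp_inl` : `u ~ x`, `u ∘ sig M p ~ x'`  ⟹  `merOp T_p u ~ B1.hecke2 p x' x`   (no hypothesis `u ≠ 0`);
* `cmp_merOp_T1`, `cmp_merOp_inl` : `merOp T_p` commutes with `cmp (slp g)`, `g ∈ Γ₀(M)`, on `Γ₁(M)`-invariant functions.
-/

set_option autoImplicit false
set_option linter.unusedSectionVars false

open AlgebraicCurve ModularCurve UpperHalfPlane
open scoped MatrixGroups IntermediateField Manifold ModularForm

namespace Fermat.Agent.S48.An1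

open Fermat.Agent.S24 Fermat.Agent.ES.An Fermat.Agent.ES
open Fermat.Agent.S48.Coh1
open Fermat.Agent.ES.D (GoodPrime)
open CongruenceSubgroup Matrix.SpecialLinearGroup

noncomputable section

section Generic

variable {Γ : Subgroup SL(2, ℤ)} (C : Corr Γ) (hC : ∀ x : C.X, 0 < (C.rep x).val.det)

theorem merOp_inv (w : Mer) : merOp C hC w⁻¹ = (merOp C hC w)⁻¹ := by
  unfold merOp
  rw [← Finset.prod_inv_distrib]
  exact Finset.prod_congr rfl fun x _ => map_inv₀ _ _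

theorem merOp_const (c : ℂ) :
    merOp C hC (algebraMap ℂ Mer c) = algebraMap ℂ Mer (c ^ Fintype.card C.X) := by
  unfold merOp
  rw [Finset.prod_congr rfl fun x _ => (cmp (repP C hC x)).commutes c, Finset.prod_const, map_pow]
  rfl

/-- a `Γ`-invariant function is mapped to a `Γ`-invariant function. -/
theorem cmp_merOp_of_invariant {u : Mer} (h : ∀ γ : Γ, cmp (slp (γ : SL(2, ℤ))) u = u) (γ : Γ) :
    cmp (slp (γ : SL(2, ℤ))) (merOp C hC u) = merOp C hC u := by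
  rw [cmp_merOp]
  refine (Finset.prod_congr rfl fun x _ => by rw [h (C.c γ x)]).trans ?_
  exact Equiv.prod_comp (C.perm γ) (fun x => cmp (repP C hC x) u)

/-- **(K5)**, abstract form: roots and their characters. -/
theorem exists_root_merOp {m : ℕ} {u : Mer} {χ : Γ →* ℂˣ}
    (h : ∃ w : Mer, w ≠ 0 ∧ w ^ m = u ∧ IsChar w χ) :
    ∃ w : Mer, w ≠ 0 ∧ w ^ m = merOp C hC u ∧ IsChar w (C.opMul χ) := by
  obtain ⟨w, hw0, hw, hχ⟩ := h
  exact ⟨merOp C hC w, merOp_ne_zero C hC hw0, by rw [← merOp_pow, hw], hχ.merOp C hC⟩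

end Generic

/-! ### `q`-expansions -/

section Lau

open HeckeLau

variable (ℓ : ℕ) [NeZero ℓ]

theorem hasLau_zero_iff {u : Mer} {x : LaurentSeries ℂ} (h : HasLau 1 u x) : u = 0 ↔ x = 0 := by
  have h0 : HasLau 1 (0 : Mer) 0 := by
    have := hasLau_const 1 0
    simpa using this
  constructor
  · rintro rfl
    exact h.unique h0
  · rintro rfl
    exact h.eq_of_eq h0

theorem normSer_zero' : normSer ℓ (0 : LaurentSeries ℂ) = 0 := by
  apply Vq_injective (R := ℂ) ℓ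
  rw [Vq_normSer ℓ (isPrimitiveRoot_exp ℓ), map_zero]
  unfold twistProd
  exact Finset.prod_eq_zero (Finset.mem_univ 1) (map_zero _)

/-- `hasLau_prod_cmp` without the hypothesis `u ≠ 0`. -/
theorem hasLau_prod_cmp' (αinf : GLp) (α : ZMod ℓ → GLp)
    (hinf : ∀ τ : ℍ, ((αinf • τ : ℍ) : ℂ) = (ℓ : ℂ) * τ)
    (hα : ∀ (j : ZMod ℓ) (τ : ℍ), ((α j • τ : ℍ) : ℂ) = ((τ : ℂ) + (j.val : ℕ)) / ℓ)
    {u : Mer} {x : LaurentSeries ℂ} (hu : HasLau 1 u x) :
    HasLau 1 (∏ j : ZMod ℓ, cmp (α j) u) (normSer ℓ x) := by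
  by_cases hu0 : u = 0
  · have hx0 := (hasLau_zero_iff hu).1 hu0
    subst hu0
    subst hx0
    have e : (∏ j : ZMod ℓ, cmp (α j) (0 : Mer)) = 0 :=
      Finset.prod_eq_zero (Finset.mem_univ (0 : ZMod ℓ)) (map_zero _)
    rw [normSer_zero', e]
    exact hu
  · exact hasLau_prod_cmp ℓ αinf α hinf hα u x hu hu0

end Lau

/-! ### `Γ₁(M)` -/

section G1

variable (M : ℕ) [NeZero M]

theorem merOp_D1 (d : (ZMod M)ˣ) (hC : ∀ x : (D1 M d).X, 0 < ((D1 M d).rep x).val.det) (u : Mer) :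
    merOp (D1 M d) hC u = cmp (slp (sig M d : SL(2, ℤ))) u := by
  unfold merOp
  exact Fintype.prod_unique (ι := Unit) _

theorem merOp_inr (d : (ZMod M)ˣ) (u : Mer) :
    merOp (corrIdx M (Sum.inr d)) (det_corrIdx_pos M _) u = cmp (slp (sig M d : SL(2, ℤ))) u :=
  merOp_D1 M d _ u

variable (p : ℕ) [Fact p.Prime] (hpM : ¬ p ∣ M)

/-- `diag(p,1)` in `GL₂(ℝ)⁺`. -/
def diagP : GLp := ⟨ModularForm.heckeDiagMatrix p, ModularForm.det_heckeDiagMatrix_pos p⟩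

theorem repP_T1_infty (hC : ∀ x : (T1 M p hpM).X, 0 < ((T1 M p hpM).rep x).val.det) :
    repP (T1 M p hpM) hC (OnePoint.infty : OnePoint (ZMod p))
      = slp (sig M (unitP M p hpM) : SL(2, ℤ)) * diagP p :=
  Subtype.ext (repT_infty M p hpM)

theorem merOp_T1 (hC : ∀ x : (T1 M p hpM).X, 0 < ((T1 M p hpM).rep x).val.det) (u : Mer) :
    merOp (T1 M p hpM) hC u
      = cmp (diagP p) (cmp (slp (sig M (unitP M p hpM) : SL(2, ℤ))) u)
        * ∏ j : ZMod p, cmp (repP (T1 M p hpM) hC ((j : OnePoint (ZMod p)))) u := by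
  unfold merOp
  rw [← cmp_mul, ← repP_T1_infty M p hpM hC]
  exact Fintype.prod_option (fun x : OnePoint (ZMod p) => cmp (repP (T1 M p hpM) hC x) u)

/-- **`q`-expansion of `merOp T_p u`.** -/
theorem hasLau_merOp_T1 (hC : ∀ x : (T1 M p hpM).X, 0 < ((T1 M p hpM).rep x).val.det)
    {u : Mer} {x x' : LaurentSeries ℂ} (hu : HasLau 1 u x)
    (hu' : HasLau 1 (cmp (slp (sig M (unitP M p hpM) : SL(2, ℤ))) u) x') :
    HasLau 1 (merOp (T1 M p hpM) hC u) (B1.hecke2 p x' x) := by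
  have hp : p ≠ 0 := (Fact.out : p.Prime).ne_zero
  have hinf : ∀ τ : ℍ, ((diagP p • τ : ℍ) : ℂ) = (p : ℂ) * τ :=
    fun τ => ModularForm.coe_heckeDiagMatrix_smul hp τ
  have hα : ∀ (j : ZMod p) (τ : ℍ),
      ((repP (T1 M p hpM) hC ((j : OnePoint (ZMod p))) • τ : ℍ) : ℂ)
        = ((τ : ℂ) + (j.val : ℕ)) / p := by
    intro j τ
    have e : (repP (T1 M p hpM) hC ((j : OnePoint (ZMod p))) • τ : ℍ)
        = (ModularForm.heckeMatrix p j.val • τ : ℍ) := by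
      show ((T1 M p hpM).rep (j : OnePoint (ZMod p)) • τ : ℍ) = _
      rw [T1_rep, repT_coe]
    rw [e]
    exact ModularForm.coe_heckeMatrix_smul hp j.val τ
  rw [merOp_T1, B1.hecke2]
  exact (hasLau_cmp_inf p (diagP p) hinf _ _ hu').mul (hasLau_prod_cmp' p (diagP p) _ hinf hα hu)

/-- the same for `corrIdx M (Sum.inl p)`. -/
theorem hasLau_merOp_inl (p : GoodPrime M) {u : Mer} {x x' : LaurentSeries ℂ} (hu : HasLau 1 u x)
    (hu' : HasLau 1 (cmp (slp (sig M (B1.gpUnit p) : SL(2, ℤ))) u) x') :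
    HasLau 1 (merOp (corrIdx M (Sum.inl p)) (det_corrIdx_pos M _) u) (B1.hecke2 p.1 x' x) := by
  have : Fact p.1.Prime := ⟨p.2.1⟩
  exact hasLau_merOp_T1 M p.1 p.2.2 _ hu hu'

/-- for a `Γ₁(M)`-invariant function `u ∘ g` (`g ∈ Γ₀(M)`) depends only on `Gamma0Map g`. -/
theorem cmp_eq_of_Gamma0Map_eqT {u : Mer} (hu : ∀ γ : Gamma1 M, cmp (slp (γ : SL(2, ℤ))) u = u)
    {g g' : Gamma0 M} (h : Gamma0Map M g = Gamma0Map M g') :
    cmp (slp (g : SL(2, ℤ))) u = cmp (slp (g' : SL(2, ℤ))) u := by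
  have h1 : ((g * g'⁻¹ : Gamma0 M) : SL(2, ℤ)) ∈ Gamma1 M := by
    rw [mem_Gamma1_iff]
    apply (Gamma0Map_isUnit M g').mul_right_cancel
    rw [← map_mul, inv_mul_cancel_right, one_mul, h]
  have h2 := hu ⟨_, h1⟩
  have h3 : (g : SL(2, ℤ)) = ((g * g'⁻¹ : Gamma0 M) : SL(2, ℤ)) * (g' : SL(2, ℤ)) := by
    rw [← Subgroup.coe_mul, inv_mul_cancel_right]
  rw [h3, map_mul, cmp_mul, h2]

/-- `u ∘ g` (`g ∈ Γ₀(M)`) is again `Γ₁(M)`-invariant. -/
theorem cmp_Gamma0_invariant {u : Mer} (hu : ∀ γ : Gamma1 M, cmp (slp (γ : SL(2, ℤ))) u = u)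
    (g : Gamma0 M) (γ : Gamma1 M) :
    cmp (slp (γ : SL(2, ℤ))) (cmp (slp (g : SL(2, ℤ))) u) = cmp (slp (g : SL(2, ℤ))) u := by
  rw [← cmp_mul, ← map_mul]
  exact cmp_eq_of_Gamma0Map_eqT M hu
    (g := g * Subgroup.inclusion (Gamma1_in_Gamma0 M) γ) (g' := g) (by
      rw [map_mul, (mem_Gamma1_iff M (Subgroup.inclusion (Gamma1_in_Gamma0 M) γ)).1 γ.2, mul_one])

/-- **`merOp T_p` commutes with `Γ₀(M)`** (in particular with the diamond operators) on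
`Γ₁(M)`-invariant functions. -/
theorem cmp_merOp_T1 (hC : ∀ x : (T1 M p hpM).X, 0 < ((T1 M p hpM).rep x).val.det)
    {u : Mer} (hu : ∀ γ : Gamma1 M, cmp (slp (γ : SL(2, ℤ))) u = u) (g : Gamma0 M) :
    cmp (slp (g : SL(2, ℤ))) (merOp (T1 M p hpM) hC u)
      = merOp (T1 M p hpM) hC (cmp (slp (g : SL(2, ℤ))) u) := by
  have key : ∀ x : OnePoint (ZMod p),
      cmp (slp (g : SL(2, ℤ))) (cmp (repP (T1 M p hpM) hC x) u)
        = cmp (repP (T1 M p hpM) hC ((T0 M p hpM).perm g x)) (cmp (slp (g : SL(2, ℤ))) u) := by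
    intro x
    have e : repP (T1 M p hpM) hC x * slp (g : SL(2, ℤ))
        = slp ((T0 M p hpM).c g x : SL(2, ℤ)) * repP (T1 M p hpM) hC ((T0 M p hpM).perm g x) :=
      Subtype.ext ((T0 M p hpM).spec g x)
    rw [← cmp_mul, e, cmp_mul, cmp_eq_of_Gamma0Map_eqT M hu (Gamma0Map_T0_c M p hpM g x)]
  unfold merOp
  rw [map_prod]
  refine (Finset.prod_congr rfl fun x _ => key x).trans ?_
  exact Equiv.prod_comp ((T0 M p hpM).perm g)
    (fun x => cmp (repP (T1 M p hpM) hC x) (cmp (slp (g : SL(2, ℤ))) u))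

/-- the same for `corrIdx M (Sum.inl p)`. -/
theorem cmp_merOp_inl (p : GoodPrime M) {u : Mer}
    (hu : ∀ γ : Gamma1 M, cmp (slp (γ : SL(2, ℤ))) u = u) (g : Gamma0 M) :
    cmp (slp (g : SL(2, ℤ))) (merOp (corrIdx M (Sum.inl p)) (det_corrIdx_pos M _) u)
      = merOp (corrIdx M (Sum.inl p)) (det_corrIdx_pos M _) (cmp (slp (g : SL(2, ℤ))) u) := by
  have : Fact p.1.Prime := ⟨p.2.1⟩
  exact cmp_merOp_T1 M p.1 p.2.2 _ hu g

end G1

end

end Fermat.Agent.S48.An1
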