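import Fermat.Agent.S48.An1.Model
import Fermat.Agent.S48.X1.F1Q
import Fermat.Agent.S48.X1.Forms
import Fermat.Agent.S48.EIS.Bridge

/-!
# S48 / An1 : what the parts (K1)-(K7), `HeckeData` need from the concrete field `F1(M)` (part (A) = X1)

`X1Data M` = the model `B` of `F1Q M` over `ℚ̄` inside `Mer` (for the group `Gpm M = ± Γ₁(M)`), with
* the values of `B.φ` on the generators,
* the `q`-expansion principle `hasLau`,
* `isMFr`        : every element is a quotient of modular forms on `Gpm M`,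
* `mem_of_isMFr` : conversely a quotient of modular forms whose `q`-expansion has coefficients in `ℚ̄` belongs to `F1(M)`,
* `root`         : (K3) an invariant `l`-th root.
-/

set_option autoImplicit false

open AlgebraicCurve ModularCurve UpperHalfPlane
open scoped MatrixGroups

namespace Fermat.Agent.S48.An1

open Fermat.Agent.S24 Fermat.Agent.ES Fermat.Agent.ES.An

noncomputable section

/-- `x_{(0,a)}` as a meromorphic function. -/
def XMer (M : ℕ) [NeZero M] (a : ZMod M) : Mer :=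
  algebraMap Hol Mer ⟨EIS.Xf M ![0, a], EIS.Xf_mdiff _⟩

/-- **The output of part (A).** -/
structure X1Data (M : ℕ) [NeZero M] where
  /-- the model over `ℚ̄` -/
  B : Model (Gpm M) M Qb (X1.F1Q M).F
  φ_jq : B.φ ⟨jqModC Qb, X1.jq_mem M⟩ = jMer
  φ_xg : ∀ a : (ZMod M)ˣ, B.φ ⟨X1.xg M (a : ZMod M), X1.xg_mem M a⟩ = XMer M (a : ZMod M)
  hasLau : ∀ f : (X1.F1Q M).F, HasLau 1 (B.φ f) (coeffMap iotaC (f : LaurentSeries Qb))
  isMFr : ∀ f : (X1.F1Q M).F, X1.IsMFr (Gpm M) (B.φ f)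
  mem_of_isMFr : ∀ (u : Mer) (x : LaurentSeries Qb), X1.IsMFr (Gpm M) u →
    HasLau 1 u (coeffMap iotaC x) → x ∈ (X1.F1Q M).E
  root : ∀ l : ℕ, 0 < l → ∀ (w : Mer) (f : (X1.F1Q M).F), w ^ l = B.φ f →
    (∀ γ : Gpm M, cmp (slp (γ : SL(2, ℤ))) w = w) → ∃ h : (X1.F1Q M).F, f = h ^ l

namespace X1Data

variable {M : ℕ} [NeZero M] (D : X1Data M)

/-- the embedding into `Mer`. -/
abbrev φ : (X1.F1Q M).F →+* Mer := D.B.φ

theorem φ_injective : Function.Injective D.φ := D.φ.injective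

theorem inv1 (γ : CongruenceSubgroup.Gamma1 M) (f : (X1.F1Q M).F) :
    cmp (slp (γ : SL(2, ℤ))) (D.φ f) = D.φ f :=
  D.B.inv ⟨γ, Gamma1_le_Gpm M γ.2⟩ f

/-- an element of `F1(M)` is determined by its `q`-expansion: membership + value of `φ`. -/
theorem exists_of_isMFr (u : Mer) (x : LaurentSeries Qb) (hu : X1.IsMFr (Gpm M) u)
    (hx : HasLau 1 u (coeffMap iotaC x)) :
    ∃ hx' : x ∈ (X1.F1Q M).E, D.φ ⟨x, hx'⟩ = u :=
  ⟨D.mem_of_isMFr u x hu hx, (D.hasLau ⟨x, D.mem_of_isMFr u x hu hx⟩).eq_of_eq hx⟩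

end X1Data

end

end Fermat.Agent.S48.An1
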