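import Fermat.Agent.S48.An1.Inst
import Fermat.Agent.S48.An1.Dia
import Fermat.Agent.S48.An1.HeckeT1
import Fermat.Agent.S48.An1.HeckeMF
import Fermat.Agent.S48.X1.Data
import Fermat.Agent.S48.Coh1.ToB1
import Fermat.Agent.ES.An.Hecke

/-!
# S48 / An1 / Out : `HeckeData` for `F1(M)`, (K5), and the final output `exists_an1`
-/

set_option autoImplicit false
set_option linter.unusedSectionVars false

open AlgebraicCurve ModularCurve UpperHalfPlane CongruenceSubgroup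
open scoped MatrixGroups IntermediateField Manifold ModularForm

namespace Fermat.Agent.S48.An1

open Fermat.Agent.S24 Fermat.Agent.ES.An Fermat.Agent.S48.Coh1
open Fermat.Agent.ES (Qb GQ)
open Fermat.Agent.ES.D (GoodPrime)

noncomputable section

variable {M : ℕ} [NeZero M] (D : X1Data M)

/-- the analytic `T_p`. -/
abbrev opT (p : GoodPrime M) (u : Mer) : Mer :=
  merOp (corrIdx M (Sum.inl p)) (det_corrIdx_pos M _) u

theorem isMFr_opT (p : GoodPrime M) {u : Mer} (hu : X1.IsMFr (Gpm M) u) :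
    X1.IsMFr (Gpm M) (opT p u) := by
  haveI : Fact p.1.Prime := ⟨p.2.1⟩
  exact isMFr_merOp_T1 M p.1 p.2.2 hu

theorem coeffMap_iotaC_hecke2 (p : ℕ) [Fact p.Prime] (x y : LaurentSeries Qb) :
    coeffMap iotaC (B1.hecke2 p x y) = B1.hecke2 p (coeffMap iotaC x) (coeffMap iotaC y) :=
  B1.coeffMap_hecke2 _ p (restrictRootsOfUnity_iotaC_bijective p) x y

/-- the `q`-expansion of the analytic `T_p`. -/
theorem hasLau_opT (p : GoodPrime M) (f : (X1.F1Q M).F) :
    haveI : NeZero p.1 := ⟨p.2.1.ne_zero⟩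
    HasLau 1 (opT p (D.φ f)) (coeffMap iotaC (B1.hecke2 p.1
      ((dia D (B1.gpUnit p) f : (X1.F1Q M).F) : LaurentSeries Qb) (f : LaurentSeries Qb))) := by
  have : Fact p.1.Prime := ⟨p.2.1⟩
  rw [coeffMap_iotaC_hecke2]
  refine hasLau_merOp_inl M p (D.hasLau f) ?_
  rw [← φ_dia]
  exact D.hasLau _

theorem exists_hecke (p : GoodPrime M) (f : (X1.F1Q M).F) :
    haveI : NeZero p.1 := ⟨p.2.1.ne_zero⟩
    ∃ hx : B1.hecke2 p.1 ((dia D (B1.gpUnit p) f : (X1.F1Q M).F) : LaurentSeries Qb)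
        (f : LaurentSeries Qb) ∈ (X1.F1Q M).E, D.φ ⟨_, hx⟩ = opT p (D.φ f) :=
  D.exists_of_isMFr _ _ (isMFr_opT p (D.isMFr f)) (hasLau_opT D p f)

/-- **The Hecke data of `F1(M)`.** -/
def hData : B1.HeckeData (X1.F1Q M) M where
  dia := dia D
  dia_gal := dia_gal D
  hecke_mem p f := (exists_hecke D p f).1
  dia_hecke d p f := by
    obtain ⟨h1, h2⟩ := exists_hecke D p f
    obtain ⟨h3, h4⟩ := exists_hecke D p (dia D d f)
    have h5 : dia D d ⟨_, h1⟩ = ⟨_, h3⟩ := by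
      apply D.φ_injective
      rw [φ_dia, h2, h4, φ_dia]
      exact cmp_merOp_inl M p (fun γ => D.inv1 γ f) (sig M d)
    exact congrArg Subtype.val h5

theorem φ_heckeF (p : GoodPrime M) (f : (X1.F1Q M).F) :
    D.φ ((hData D).heckeF p f) = opT p (D.φ f) := (exists_hecke D p f).2

theorem φ_hData_dia (d : (ZMod M)ˣ) (f : (X1.F1Q M).F) :
    D.φ ((hData D).dia d f)
      = merOp (corrIdx M (Sum.inr d)) (det_corrIdx_pos M _) (D.φ f) := by
  rw [merOp_inr]
  exact φ_dia D d f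

variable (hM : 5 ≤ M) {l : ℕ}

/-- (K5) for `T_p`. -/
theorem HasChar1.hecke (p : GoodPrime M) {f : (X1.F1Q M).F} {χ : Gamma1 M →* ℂˣ}
    (h : HasChar1 hM l f χ) :
    HasChar1 hM l ((hData (X1.x1Data M hM)).heckeF p f) ((corrIdx M (Sum.inl p)).opMul χ) := by
  rw [hasChar1_iff] at h ⊢
  have h1 := exists_root_merOp (corrIdx M (Sum.inl p)) (det_corrIdx_pos M _) h
  have h2 := φ_heckeF (X1.x1Data M hM) p f
  change (X1.modelB1 M hM).φ _ = merOp _ _ ((X1.modelB1 M hM).φ f) at h2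
  rwa [← h2] at h1

/-- (K5) for `⟨d⟩`. -/
theorem HasChar1.dia (d : (ZMod M)ˣ) {f : (X1.F1Q M).F} {χ : Gamma1 M →* ℂˣ}
    (h : HasChar1 hM l f χ) :
    HasChar1 hM l ((hData (X1.x1Data M hM)).dia d f) ((corrIdx M (Sum.inr d)).opMul χ) := by
  rw [hasChar1_iff] at h ⊢
  have h1 := exists_root_merOp (corrIdx M (Sum.inr d)) (det_corrIdx_pos M _) h
  have h2 := φ_hData_dia (X1.x1Data M hM) d f
  change (X1.modelB1 M hM).φ _ = merOp _ _ ((X1.modelB1 M hM).φ f) at h2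
  rwa [← h2] at h1

/-- **The output of part An1.** -/
def an1Out (hl : 0 < l) : An1Out (X1.F1Q M) (hData (X1.x1Data M hM)) l where
  HasChar := HasChar1 hM l
  exists_hasChar := exists_hasChar1 hM hl
  unique h h' := HasChar1.unique hM hl h h'
  mul h h' := HasChar1.mul hM h h'
  one_iff := hasChar1_one_iff hM hl
  exists_of_isGood := exists_of_isGood1 hM hl
  hecke p _ _ h := HasChar1.hecke hM p h
  dia d _ _ h := HasChar1.dia hM d h

include hM in
/-- **An1**: diamond operators, Hecke operators and the character theory (K1)-(K7) of `F1(M)`. -/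
theorem exists_an1 (hl : 0 < l) :
    ∃ (H : B1.HeckeData (X1.F1Q M) M) (A : An1Out (X1.F1Q M) H l),
      (∀ f : (X1.F1Q M).F, f ≠ 0 → (∀ P : Place Qb (X1.F1Q M).F, (l : ℤ) ∣ P.ord f) →
        ∀ χ, A.HasChar f χ → Coh1.IsGood χ) ∧
      (∀ f : (X1.F1Q M).F, f ≠ 0 → ∀ χ, A.HasChar f χ → Coh1.IsGood χ →
        ∀ P : Place Qb (X1.F1Q M).F, (l : ℤ) ∣ P.ord f) :=
  ⟨_, an1Out hM hl, HasChar1.isGood hM hl, HasChar1.divBy hM hl⟩

end

end Fermat.Agent.S48.An1
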