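import Fermat.Agent.S48.An1.Main
import Fermat.Agent.S48.An1.Desc.Inst
import Fermat.Agent.S48.Coh1.Glue

/-!
# S48 / An1 / Inst : (K1)-(K4), (K6), (K7) for `F1(M)`, `M ≥ 5`, and characters of `Γ₁(M)`

Instance of `An1/Main.lean` for `Γ = Gpm M`, `h = M`, `D = X1.gens1 M hM`, `Δ = Γ₁(M)`.
-/

set_option autoImplicit false
set_option linter.unusedSectionVars false

open AlgebraicCurve ModularCurve UpperHalfPlane CongruenceSubgroup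
open scoped MatrixGroups IntermediateField Manifold ModularForm

namespace Fermat.Agent.S48.An1

open Fermat.Agent.S24 Fermat.Agent.ES.An
open Fermat.Agent.ES (Qb)

noncomputable section

variable (M : ℕ) [NeZero M]

theorem pm_Gpm : ∀ γ ∈ Gpm M, γ ∈ Gamma1 M ∨ -γ ∈ Gamma1 M := fun _ h => h

theorem Gamma_le_Gpm : Gamma M ≤ Gpm M := fun γ hγ => by
  refine Gamma1_le_Gpm M ?_
  rw [Gamma_mem] at hγ
  rw [Gamma1_mem]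
  exact ⟨hγ.1, hγ.2.2.2, hγ.2.2.1⟩

/-- `Γ₁(M)`, `M ≥ 5`, has no elliptic element and does not contain `-1`. -/
theorem trace_sq_of_mem_Gamma1 (hM : 5 ≤ M) (δ : SL(2, ℤ)) (hδ : δ ∈ Gamma1 M)
    (h : |(δ : Matrix (Fin 2) (Fin 2) ℤ).trace| ≤ 2) :
    (δ : Matrix (Fin 2) (Fin 2) ℤ).trace ^ 2 = 4 := by
  rw [Gamma1_mem] at hδ
  have h1 : (((δ : Matrix (Fin 2) (Fin 2) ℤ).trace - 2 : ℤ) : ZMod M) = 0 := by
    rw [Matrix.trace_fin_two]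
    push_cast
    rw [hδ.1, hδ.2.1]
    ring
  rw [ZMod.intCast_zmod_eq_zero_iff_dvd] at h1
  obtain ⟨k, hk⟩ := h1
  rw [abs_le] at h
  have hM' : (5 : ℤ) ≤ M := by exact_mod_cast hM
  have hk0 : k = 0 := by
    by_contra hne
    rcases lt_or_gt_of_ne hne with h2 | h2
    · have : (M : ℤ) * k ≤ -5 := by nlinarith
      omega
    · have : 5 ≤ (M : ℤ) * k := by nlinarith
      omega
  rw [hk0, mul_zero] at hk
  have : (δ : Matrix (Fin 2) (Fin 2) ℤ).trace = 2 := by omega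
  rw [this]
  norm_num

theorem isGood_iff {Γ : Subgroup SL(2, ℤ)} (ψ : Γ →* ℂˣ) : Coh1.IsGood ψ ↔ IsGood ψ := Iff.rfl

variable {M}

/-- `χ : Γ₁(M) →* ℂˣ` is the character of the `l`-th roots (on `ℍ`) of `f ∈ F1(M)`. -/
def HasChar1 (hM : 5 ≤ M) (l : ℕ) (f : (X1.F1Q M).F) (χ : Gamma1 M →* ℂˣ) : Prop :=
  HasChar (X1.gens1 M hM) l f χ

theorem hasChar1_iff (hM : 5 ≤ M) {l : ℕ} {f : (X1.F1Q M).F} {χ : Gamma1 M →* ℂˣ} :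
    HasChar1 hM l f χ ↔ ∃ w : Mer, w ≠ 0 ∧ w ^ l = (X1.modelB1 M hM).φ f ∧ IsChar w χ := Iff.rfl

variable (hM : 5 ≤ M) {l : ℕ} (hl : 0 < l)

include hl

/-- (K1) existence -/
theorem exists_hasChar1 (f : (X1.F1Q M).F) (hf0 : f ≠ 0)
    (hf : ∀ P : Place Qb (X1.F1Q M).F, (l : ℤ) ∣ P.ord f) :
    ∃ χ, HasChar1 hM l f χ ∧ χ ^ l = 1 :=
  exists_hasChar (D := X1.gens1 M hM) (X1.T_mem_Gpm M) (Gamma1_le_Gpm M) l hl f hf0 hf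

/-- (K1) uniqueness -/
theorem HasChar1.unique {f : (X1.F1Q M).F} {χ χ' : Gamma1 M →* ℂˣ} (h : HasChar1 hM l f χ)
    (h' : HasChar1 hM l f χ') : χ = χ' :=
  HasChar.unique hl h h'

omit hl in
/-- (K2) -/
theorem HasChar1.mul {f g : (X1.F1Q M).F} {χ χ' : Gamma1 M →* ℂˣ} (h : HasChar1 hM l f χ)
    (h' : HasChar1 hM l g χ') : HasChar1 hM l (f * g) (χ * χ') :=
  HasChar.mul h h'

/-- (K3) -/
theorem hasChar1_one_iff (f : (X1.F1Q M).F) (hf0 : f ≠ 0) :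
    HasChar1 hM l f 1 ↔ ∃ k : (X1.F1Q M).F, f = k ^ l :=
  hasChar_one_iff (D := X1.gens1 M hM) (X1.T_mem_Gpm M) (Gamma1_le_Gpm M) (pm_Gpm M) hl hf0

/-- (K4) -/
theorem exists_of_isGood1 (ψ : Gamma1 M →* ℂˣ) (hψ : Coh1.IsGood ψ) (hψl : ψ ^ l = 1) :
    ∃ f : (X1.F1Q M).F, f ≠ 0 ∧ (∀ P : Place Qb (X1.F1Q M).F, (l : ℤ) ∣ P.ord f) ∧
      HasChar1 hM l f ψ :=
  exists_of_isGood (D := X1.gens1 M hM) (X1.T_mem_Gpm M) (Gamma1_le_Gpm M) (pm_Gpm M)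
    (neg_one_mem_Gpm M) (K4.conj_T_pow_mem_Gpm M) (Desc.stable_FC1' M) ψ hψ l hl hψl

/-- (K6) -/
theorem HasChar1.isGood (f : (X1.F1Q M).F) (hf0 : f ≠ 0)
    (hf : ∀ P : Place Qb (X1.F1Q M).F, (l : ℤ) ∣ P.ord f) (χ : Gamma1 M →* ℂˣ)
    (hχ : HasChar1 hM l f χ) : Coh1.IsGood χ :=
  HasChar.isGood (D := X1.gens1 M hM) (X1.T_mem_Gpm M) (Gamma1_le_Gpm M) (pm_Gpm M) (neg_one_mem_Gpm M)
    (Gamma_le_Gpm M) (trace_sq_of_mem_Gamma1 M hM) hl hf0 hf hχ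

/-- (K7) -/
theorem HasChar1.divBy (f : (X1.F1Q M).F) (hf0 : f ≠ 0) (χ : Gamma1 M →* ℂˣ)
    (hχ : HasChar1 hM l f χ) (hgood : Coh1.IsGood χ) :
    ∀ P : Place Qb (X1.F1Q M).F, (l : ℤ) ∣ P.ord f :=
  HasChar.divBy (D := X1.gens1 M hM) (X1.T_mem_Gpm M) (pm_Gpm M) (K4.conj_T_pow_mem_Gpm M) hl hf0 hχ hgood

end

end Fermat.Agent.S48.An1
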