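import Fermat.Agent.ES.An.Basic
import Fermat.Agent.ES.An.Package

/-!
# S48 / An1 : abstract analytic model of a modular function field, generic in the group `Γ ≤ SL₂(ℤ)`

`ES/An/Model.lean` with `Γ₀(N)` replaced by an arbitrary subgroup `Γ` of `SL₂(ℤ)` (to be applied to
`Γ = Gpm M = ± Γ₁(M)`), and the width `N` of the cusps by `h`.
Everything generic of `ES/An` (`Mer`, `cmp`, `slp`, `tay`, `ordAt`, `MerCusp`, `lau`, `HasLau`, `DivBy`, `jMer`,
`dvd_ord_of_package`, ...) is IMPORTED from `ES/An/{Defs,Basic,Package}.lean`, not copied.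
-/

set_option autoImplicit false

open AlgebraicCurve ModularCurve UpperHalfPlane
open scoped MatrixGroups IntermediateField Manifold ModularForm

namespace Fermat.Agent.S48.An1

open Fermat.Agent.S24 Fermat.Agent.ES.An

noncomputable section

/-- `± Γ₁(M)`. -/
def Gpm (M : ℕ) : Subgroup SL(2, ℤ) where
  carrier := {γ | γ ∈ CongruenceSubgroup.Gamma1 M ∨ -γ ∈ CongruenceSubgroup.Gamma1 M}
  one_mem' := Or.inl (one_mem _)
  mul_mem' := by
    rintro a b (ha | ha) (hb | hb)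
    · exact Or.inl (mul_mem ha hb)
    · exact Or.inr (by rw [← mul_neg]; exact mul_mem ha hb)
    · exact Or.inr (by rw [← neg_mul]; exact mul_mem ha hb)
    · exact Or.inl (by rw [← neg_mul_neg]; exact mul_mem ha hb)
  inv_mem' := by
    rintro a (ha | ha)
    · exact Or.inl (inv_mem ha)
    · refine Or.inr ?_
      have h : -a⁻¹ = (-a)⁻¹ := by
        rw [eq_inv_iff_mul_eq_one, neg_mul_neg, inv_mul_cancel]
      rw [h]
      exact inv_mem ha

theorem mem_Gpm {M : ℕ} {γ : SL(2, ℤ)} :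
    γ ∈ Gpm M ↔ γ ∈ CongruenceSubgroup.Gamma1 M ∨ -γ ∈ CongruenceSubgroup.Gamma1 M := Iff.rfl

theorem Gamma1_le_Gpm (M : ℕ) : CongruenceSubgroup.Gamma1 M ≤ Gpm M := fun _ h => Or.inl h

theorem neg_one_mem_Gpm (M : ℕ) : (-1 : SL(2, ℤ)) ∈ Gpm M := Or.inr (by rw [neg_neg]; exact one_mem _)

/-- `w ∘ γ = χ(γ) w` for all `γ ∈ Γ`. -/
def IsChar {Γ : Subgroup SL(2, ℤ)} (w : Mer) (χ : Γ →* ℂˣ) : Prop :=
  ∀ γ : Γ, cmp (slp (γ : SL(2, ℤ))) w = ((χ γ : ℂˣ) : ℂ) • w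

/-- unitary characters of `Γ` killing the elements of trace `≤ 2` in absolute value. -/
def IsGood {Γ : Subgroup SL(2, ℤ)} (ψ : Γ →* ℂˣ) : Prop :=
  (∀ γ, ‖((ψ γ : ℂˣ) : ℂ)‖ = 1) ∧
    ∀ γ : Γ, |((γ : SL(2, ℤ)) : Matrix (Fin 2) (Fin 2) ℤ).trace| ≤ 2 → ψ γ = 1

/-- A function field `F/K` realised inside `Mer` as the function field of `Γ \ ℍ*`. -/
structure Model (Γ : Subgroup SL(2, ℤ)) (h : ℕ) [NeZero h] (K F : Type) [Field K] [Field F]
    [Algebra K F] [Algebra K ℂ] where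
  φ : F →+* Mer
  φ_alg : ∀ c : K, φ (algebraMap K F c) = algebraMap ℂ Mer (algebraMap K ℂ c)
  j : F
  φ_j : φ j = jMer
  tr : Transcendental K j
  fin : FiniteDimensional K⟮j⟯ F
  deg : Module.finrank K⟮j⟯ F = Nat.card (SL(2, ℤ) ⧸ Γ)
  inv : ∀ (γ : Γ) (f : F), cmp (slp (γ : SL(2, ℤ))) (φ f) = φ f
  sep : ∀ g : SL(2, ℤ), (∀ f : F, cmp (slp g) (φ f) = φ f) → g ∈ Γ
  cusp : ∀ (g : SL(2, ℤ)) (f : F), cmp (slp g) (φ f) ∈ MerCusp h

end

end Fermat.Agent.S48.An1
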