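import Fermat.Agent.S48.X1.Forms
import Fermat.Agent.S48.An1.Model
import Fermat.Agent.ES.An.MkMF

/-!
# S48 / An1-Norm : multiplicative transfer of quotients of modular forms

* `isMFr_prod_cmp` : if `u` is a quotient of modular forms on `Γ` and `rep : X → GL₂(ℚ)⁺` is a finite family whose cosets
  `Γ · rep x` are permuted by right multiplication by `Γ`, then `∏ x, u ∘ rep x` is a quotient of modular forms on `Γ`.
* `isMFr_cmp_normal` : `u ∘ δ` is a quotient of modular forms on `Γ` if `δ ∈ SL₂(ℤ)` normalises `Γ`.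
-/

set_option autoImplicit false

open AlgebraicCurve ModularCurve UpperHalfPlane Matrix.SpecialLinearGroup
open scoped MatrixGroups IntermediateField Manifold ModularForm

namespace Fermat.Agent.S48.An1

open Fermat.Agent.S24 Fermat.Agent.ES.An Fermat.Agent.S48.X1

noncomputable section

namespace Norm

/-- the slash of a holomorphic function by an element of `GL₂(ℝ)`, as an element of `Hol`. -/
def slG (k : ℤ) (α : GL (Fin 2) ℝ) (F : Hol) : Hol := ⟨(F : ℍ → ℂ) ∣[k] α, F.2.slash k α⟩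

theorem coe_slG (k : ℤ) (α : GL (Fin 2) ℝ) (F : Hol) : (slG k α F : ℍ → ℂ) = (F : ℍ → ℂ) ∣[k] α := rfl

theorem slG_apply (k : ℤ) (α : GLp) (F : Hol) (τ : ℍ) :
    (slG k (α : GL (Fin 2) ℝ) F : ℍ → ℂ) τ
      = (F : ℍ → ℂ) (α • τ) * ((|(α : GL (Fin 2) ℝ).det.val| : ℝ) : ℂ) ^ (k - 1)
        * denom (α : GL (Fin 2) ℝ) τ ^ (-k) := by
  have h : 0 < (α : GL (Fin 2) ℝ).det.val := α.2
  rw [coe_slG, ModularForm.slash_apply, UpperHalfPlane.σ, if_pos h]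
  rfl

theorem det_ne_zero (α : GLp) : ((|(α : GL (Fin 2) ℝ).det.val| : ℝ) : ℂ) ≠ 0 := by
  have h : (α : GL (Fin 2) ℝ).det.val ≠ 0 := (α : GL (Fin 2) ℝ).det.ne_zero
  exact_mod_cast abs_ne_zero.mpr h

theorem slG_ne_zero (k : ℤ) (α : GLp) {F : Hol} (hF : F ≠ 0) :
    slG k (α : GL (Fin 2) ℝ) F ≠ 0 := by
  intro h
  apply hF
  apply Subtype.ext
  funext τ
  have h1 := congrFun (congrArg Subtype.val h) (α⁻¹ • τ)
  rw [slG_apply, smul_inv_smul] at h1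
  have h2 := (mul_eq_zero.mp h1).resolve_right (zpow_ne_zero _ (denom_ne_zero _ _))
  exact (mul_eq_zero.mp h2).resolve_right (zpow_ne_zero _ (det_ne_zero α))

theorem cmpHol_mul_slG (k : ℤ) (α : GLp) (F G : Hol) :
    cmpHol α F * slG k (α : GL (Fin 2) ℝ) G = slG k (α : GL (Fin 2) ℝ) F * cmpHol α G := by
  apply Subtype.ext
  funext τ
  show (cmpHol α F : ℍ → ℂ) τ * (slG k (α : GL (Fin 2) ℝ) G : ℍ → ℂ) τ
    = (slG k (α : GL (Fin 2) ℝ) F : ℍ → ℂ) τ * (cmpHol α G : ℍ → ℂ) τ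
  rw [cmpHol_apply, cmpHol_apply, slG_apply, slG_apply]
  ring

/-- `(F / G) ∘ α = (F ∣ α) / (G ∣ α)`. -/
theorem cmp_div_eq_GL (k : ℤ) (α : GLp) (F G : Hol) (hG : G ≠ 0) :
    cmp α (algebraMap Hol Mer F / algebraMap Hol Mer G)
      = algebraMap Hol Mer (slG k (α : GL (Fin 2) ℝ) F)
        / algebraMap Hol Mer (slG k (α : GL (Fin 2) ℝ) G) := by
  have hinj := IsFractionRing.injective Hol Mer
  have h1 : algebraMap Hol Mer (cmpHol α G) ≠ 0 := by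
    rw [Ne, map_eq_zero_iff _ hinj]
    intro h
    exact hG (cmpHol_injective α (by rw [h, map_zero]))
  have h2 : algebraMap Hol Mer (slG k (α : GL (Fin 2) ℝ) G) ≠ 0 := by
    rw [Ne, map_eq_zero_iff _ hinj]
    exact slG_ne_zero k α hG
  rw [map_div₀, cmp_algebraMap, cmp_algebraMap, div_eq_div_iff h1 h2, ← map_mul, ← map_mul,
    cmpHol_mul_slG]

variable {Γ : Subgroup SL(2, ℤ)} [Γ.FiniteIndex]

open ConjAct Pointwise in
/-- all `SL₂(ℤ)`-translates of `F ∣ α`, `α` rational, are bounded at `i∞`. -/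
theorem bdd_slash_rat {k : ℤ} {F : ℍ → ℂ} (hF : IsMF Γ k F) (a : GL (Fin 2) ℚ) (g : SL(2, ℤ)) :
    IsBoundedAtImInfty ((F ∣[k] (a.map (Rat.castHom ℝ) : GL (Fin 2) ℝ)) ∣[k] g) := by
  obtain ⟨f, rfl⟩ := hF
  have : (toConjAct (a.map (Rat.castHom ℝ) : GL (Fin 2) ℝ)⁻¹ • GR Γ).IsArithmetic := by
    have h := Subgroup.IsArithmetic.conj (GR Γ) a⁻¹
    rwa [map_inv] at h
  exact ModularFormClass.bdd_at_infty_slash
    (ModularForm.translate f (a.map (Rat.castHom ℝ) : GL (Fin 2) ℝ)) g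

theorem SL_slash' (k : ℤ) (g : SL(2, ℤ)) (F : ℍ → ℂ) :
    F ∣[k] g = F ∣[k] (mapGL ℝ g : GL (Fin 2) ℝ) := rfl

theorem prod_slash_SL {X : Type} [Fintype X] (k : ℤ) (g : SL(2, ℤ)) (F : X → ℍ → ℂ) :
    (∏ x, F x) ∣[k * (Fintype.card X : ℤ)] g = ∏ x, (F x ∣[k] g) := by
  rw [SL_slash']
  have h := ModularForm.prod_slash (k := k) (g := (mapGL ℝ g : GL (Fin 2) ℝ)) (f := F)
    (s := Finset.univ)
  rw [Finset.card_univ] at h
  rw [h]
  simp [SL_slash']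

/-- the norm of a modular form. -/
theorem isMF_prod_slash {X : Type} [Fintype X] (rep : X → GL (Fin 2) ℝ)
    (hrat : ∀ x, ∃ a : GL (Fin 2) ℚ, rep x = a.map (Rat.castHom ℝ))
    (hperm : ∀ γ : Γ, ∃ σ : Equiv.Perm X, ∀ x, ∃ γ' : Γ,
      rep x * mapGL ℝ (γ : SL(2, ℤ)) = mapGL ℝ (γ' : SL(2, ℤ)) * rep (σ x))
    {k : ℤ} {F : ℍ → ℂ} (hF : IsMF Γ k F) :
    IsMF Γ (k * (Fintype.card X : ℤ)) (∏ x, F ∣[k] rep x) := by
  refine isMF_of _ _ ?_ (fun γ => ?_) (fun g => ?_)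
  · have h : ∀ s : Finset X, MDiff (∏ x ∈ s, F ∣[k] rep x) := by
      intro s
      classical
      induction s using Finset.induction_on with
      | empty =>
        rw [Finset.prod_empty]
        exact (1 : Hol).2
      | insert a s ha ih =>
        rw [Finset.prod_insert ha]
        exact ((⟨_, hF.mdiff.slash k (rep a)⟩ : Hol) * ⟨_, ih⟩).2
    exact h _
  · rw [prod_slash_SL]
    obtain ⟨σ, hσ⟩ := hperm γ
    rw [← Equiv.prod_comp σ (fun x => F ∣[k] rep x)]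
    refine Finset.prod_congr rfl fun x _ => ?_
    obtain ⟨γ', hγ'⟩ := hσ x
    rw [SL_slash', ← SlashAction.slash_mul, hγ', SlashAction.slash_mul,
      ← SL_slash', IsMF_slash_eq hF γ']
  · rw [prod_slash_SL]
    have h : ∀ s : Finset X, IsBoundedAtImInfty (∏ x ∈ s, (F ∣[k] rep x) ∣[k] g) := by
      intro s
      classical
      induction s using Finset.induction_on with
      | empty =>
        rw [Finset.prod_empty]
        exact Filter.const_boundedAtFilter _ (1 : ℂ)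
      | insert a s ha ih =>
        rw [Finset.prod_insert ha]
        obtain ⟨b, hb⟩ := hrat a
        exact (hb ▸ bdd_slash_rat hF b g).mul ih
    exact h _

end Norm

open Norm

variable {Γ : Subgroup SL(2, ℤ)} [Γ.FiniteIndex]

/-- **multiplicative transfer.** -/
theorem isMFr_prod_cmp {X : Type} [Fintype X] (rep : X → GLp)
    (hrat : ∀ x, ∃ a : GL (Fin 2) ℚ, (rep x : GL (Fin 2) ℝ) = a.map (Rat.castHom ℝ))
    (hperm : ∀ γ : Γ, ∃ σ : Equiv.Perm X, ∀ x, ∃ γ' : Γ,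
      (rep x : GL (Fin 2) ℝ) * mapGL ℝ (γ : SL(2, ℤ))
        = mapGL ℝ (γ' : SL(2, ℤ)) * (rep (σ x) : GL (Fin 2) ℝ))
    {u : Mer} (hu : IsMFr Γ u) : IsMFr Γ (∏ x, cmp (rep x) u) := by
  obtain ⟨k, A, B, hA, hB, hB0, rfl⟩ := hu
  have hA' := isMF_prod_slash (fun x => (rep x : GL (Fin 2) ℝ)) hrat hperm hA
  have hB' := isMF_prod_slash (fun x => (rep x : GL (Fin 2) ℝ)) hrat hperm hB
  have eA : ((∏ x, slG k (rep x : GL (Fin 2) ℝ) A : Hol) : ℍ → ℂ)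
      = ∏ x, (A : ℍ → ℂ) ∣[k] (rep x : GL (Fin 2) ℝ) := by
    rw [SubmonoidClass.coe_finsetProd]
    rfl
  have eB : ((∏ x, slG k (rep x : GL (Fin 2) ℝ) B : Hol) : ℍ → ℂ)
      = ∏ x, (B : ℍ → ℂ) ∣[k] (rep x : GL (Fin 2) ℝ) := by
    rw [SubmonoidClass.coe_finsetProd]
    rfl
  refine ⟨_, ∏ x, slG k (rep x : GL (Fin 2) ℝ) A, ∏ x, slG k (rep x : GL (Fin 2) ℝ) B,
    eA ▸ hA', eB ▸ hB', Finset.prod_ne_zero_iff.mpr fun x _ => slG_ne_zero k (rep x) hB0, ?_⟩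
  rw [map_prod, map_prod, ← Finset.prod_div_distrib]
  exact Finset.prod_congr rfl fun x _ => cmp_div_eq_GL k (rep x) A B hB0

/-- slash by an element normalising `Γ`. -/
theorem isMF_slash_normal {δ : SL(2, ℤ)} (hδ : ∀ γ ∈ Γ, δ * γ * δ⁻¹ ∈ Γ) {k : ℤ} {F : ℍ → ℂ}
    (hF : IsMF Γ k F) : IsMF Γ k (F ∣[k] δ) := by
  refine isMF_of _ _ (mdiff_slash hF.mdiff k δ) (fun γ => ?_) (fun g => ?_)
  · rw [← SlashAction.slash_mul]
    have h : δ * (γ : SL(2, ℤ)) = (δ * γ * δ⁻¹) * δ := by group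
    rw [h, SlashAction.slash_mul]
    exact congrArg (· ∣[k] δ) (IsMF_slash_eq hF ⟨_, hδ γ γ.2⟩)
  · rw [← SlashAction.slash_mul]
    exact IsMF_bdd_slash hF _

/-- **diamonds.** -/
theorem isMFr_cmp_normal {δ : SL(2, ℤ)} (hδ : ∀ γ ∈ Γ, δ * γ * δ⁻¹ ∈ Γ) {u : Mer}
    (hu : IsMFr Γ u) : IsMFr Γ (cmp (slp δ) u) := by
  obtain ⟨k, A, B, hA, hB, hB0, rfl⟩ := hu
  exact ⟨k, slHol k δ A, slHol k δ B, isMF_slash_normal hδ hA, isMF_slash_normal hδ hB,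
    slHol_ne_zero k δ hB0, cmp_div_eq k δ A B hB0⟩

end

end Fermat.Agent.S48.An1
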