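import Fermat.Agent.S48.An1.Model

/-! # S48/An1 : Dict-1 (algebraic ⇒ analytic), port of `ES/An/Model.lean`, generic in `Γ`. -/

set_option autoImplicit false

open AlgebraicCurve ModularCurve UpperHalfPlane
open scoped MatrixGroups IntermediateField Manifold ModularForm

namespace Fermat.Agent.S48.An1

open Fermat.Agent.ES.An

open Fermat.Agent.S24

noncomputable section

variable {Γ : Subgroup SL(2, ℤ)} {N : ℕ} [NeZero N] {K F : Type} [Field K] [Field F] [Algebra K F]
  [Algebra K ℂ]

/-- Dict-1 (algebraic ⇒ analytic). -/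
theorem Model.dvd_ordAt (M : Model Γ N K F) (m : ℕ) (f : F) (hf : DivBy K m f) (τ : ℍ) :
    (m : ℤ) ∣ ordAt τ (M.φ f) := by
  by_cases hf0 : f = 0
  · subst hf0
    simp [ordAt]
  have hne : ∀ g : F, g ≠ 0 → M.φ g ≠ 0 := fun g hg => by
    rwa [Ne, map_eq_zero]
  by_cases hnt : ∃ g : F, g ≠ 0 ∧ ordAt τ (M.φ g) ≠ 0
  · obtain ⟨v, c, -, hv⟩ := FF.exists_place_of_ordFun (K := K) (fun g : F => ordAt τ (M.φ g))
      (fun g h hg hh => by
        show ordAt τ (M.φ (g * h)) = _
        rw [map_mul, ordAt_mul τ (hne g hg) (hne h hh)])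
      (fun g h hg hh hgh => by
        show _ ≤ ordAt τ (M.φ (g + h))
        rw [map_add]
        apply min_ordAt_le_add
        rw [← map_add]
        exact hne _ hgh)
      (fun c _ => by
        show ordAt τ (M.φ (algebraMap K F c)) = 0
        rw [M.φ_alg, ordAt_const])
      hnt
    rw [hv f hf0]
    exact Dvd.dvd.mul_left (hf v) _
  · push Not at hnt
    rw [hnt f hf0]
    exact dvd_zero _

end

end Fermat.Agent.S48.An1
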