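import Fermat.Agent.S48.X1.BC
import Fermat.Agent.S48.An1.Char
import Fermat.Agent.S48.An1.Dvd
import Fermat.Agent.S48.An1.GoodPar
import Fermat.Agent.S48.An1.Desc.Gen
import Fermat.Agent.ES.An.Root

/-!
# S48 / An1 / CharC : characters of a subgroup `Δ ≤ Γ = ± Δ`; the character of a class of `D_m(F_ℂ) / F_ℂ^{×m}`; descent

`D : X1.Gens Γ h` (to be applied to `Γ = Gpm M = ± Γ₁(M)`), `Δ ≤ Γ` with `Γ = ± Δ` (to be applied to `Δ = Γ₁(M)`).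

* `ext hpm ψ : Γ →* ℂˣ` : extension of a character of `Δ` to `Γ = ± Δ`;
* `HasCharC D m f χ`    : `χ : Δ →* ℂˣ` is the character of the `m`-th roots of `f ∈ D.F`;
* `descent`             : every class of `D_m(F_ℂ)` is defined over `ℚ̄`.
-/

set_option autoImplicit false
set_option linter.unusedSectionVars false

open AlgebraicCurve ModularCurve UpperHalfPlane
open scoped MatrixGroups IntermediateField Manifold ModularForm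

namespace Fermat.Agent.S48.An1

open Fermat.Agent.S24 Fermat.Agent.ES.An
open Fermat.Agent.ES (Qb)
open Fermat.Agent.S48.X1 (Gens)

noncomputable section

section Ext

variable {Γ Δ : Subgroup SL(2, ℤ)}

open Classical in
/-- the extension of a character of `Δ` to `Γ = ± Δ`. -/
def ext (hpm : ∀ γ ∈ Γ, γ ∈ Δ ∨ -γ ∈ Δ) (ψ : Δ →* ℂˣ) : Γ →* ℂˣ :=
  MonoidHom.mk' (fun γ => if h : (γ : SL(2, ℤ)) ∈ Δ then ψ ⟨γ, h⟩
    else ψ ⟨-(γ : SL(2, ℤ)), (hpm γ γ.2).resolve_left h⟩) (by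
    intro a b
    by_cases ha : (a : SL(2, ℤ)) ∈ Δ <;> by_cases hb : (b : SL(2, ℤ)) ∈ Δ
    · have hab : ((a * b : Γ) : SL(2, ℤ)) ∈ Δ := mul_mem ha hb
      rw [dif_pos ha, dif_pos hb, dif_pos hab, ← map_mul]
      rfl
    · have hab : ((a * b : Γ) : SL(2, ℤ)) ∉ Δ := fun h => hb (by
        have := mul_mem (inv_mem ha) h
        rwa [Subgroup.coe_mul, inv_mul_cancel_left] at this)
      rw [dif_pos ha, dif_neg hb, dif_neg hab, ← map_mul]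
      congr 1
      apply Subtype.ext
      simp
    · have hab : ((a * b : Γ) : SL(2, ℤ)) ∉ Δ := fun h => ha (by
        have := mul_mem h (inv_mem hb)
        rwa [Subgroup.coe_mul, mul_inv_cancel_right] at this)
      rw [dif_neg ha, dif_pos hb, dif_neg hab, ← map_mul]
      congr 1
      apply Subtype.ext
      simp
    · have hab : ((a * b : Γ) : SL(2, ℤ)) ∈ Δ := by
        have := mul_mem ((hpm a a.2).resolve_left ha) ((hpm b b.2).resolve_left hb)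
        rwa [neg_mul_neg] at this
      rw [dif_neg ha, dif_neg hb, dif_pos hab, ← map_mul]
      congr 1
      apply Subtype.ext
      simp)

variable (hpm : ∀ γ ∈ Γ, γ ∈ Δ ∨ -γ ∈ Δ)

theorem ext_of_mem (ψ : Δ →* ℂˣ) (γ : Γ) (h : (γ : SL(2, ℤ)) ∈ Δ) : ext hpm ψ γ = ψ ⟨γ, h⟩ :=
  dif_pos h

theorem ext_of_not_mem (ψ : Δ →* ℂˣ) (γ : Γ) (h : (γ : SL(2, ℤ)) ∉ Δ) :
    ext hpm ψ γ = ψ ⟨-(γ : SL(2, ℤ)), (hpm γ γ.2).resolve_left h⟩ :=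
  dif_neg h

/-- every value of `ext ψ` is a value of `ψ` at `± γ`. -/
theorem exists_ext_eq (ψ : Δ →* ℂˣ) (γ : Γ) :
    ∃ δ : Δ, ((δ : SL(2, ℤ)) = γ ∨ (δ : SL(2, ℤ)) = -(γ : SL(2, ℤ))) ∧ ext hpm ψ γ = ψ δ := by
  by_cases h : (γ : SL(2, ℤ)) ∈ Δ
  · exact ⟨⟨γ, h⟩, Or.inl rfl, ext_of_mem hpm ψ γ h⟩
  · exact ⟨⟨-(γ : SL(2, ℤ)), (hpm γ γ.2).resolve_left h⟩, Or.inr rfl, ext_of_not_mem hpm ψ γ h⟩

theorem ext_pow_eq_one {ψ : Δ →* ℂˣ} {m : ℕ} (h : ψ ^ m = 1) : ext hpm ψ ^ m = 1 := by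
  ext γ
  obtain ⟨δ, -, hδ⟩ := exists_ext_eq hpm ψ γ
  have := congrArg (fun c : ℂˣ => (c : ℂ)) (DFunLike.congr_fun h δ)
  simpa [hδ] using this

theorem isGood_ext {ψ : Δ →* ℂˣ} (h : IsGood ψ) : IsGood (ext hpm ψ) := by
  refine ⟨fun γ => ?_, fun γ hγ => ?_⟩
  · obtain ⟨δ, -, hδ⟩ := exists_ext_eq hpm ψ γ
    rw [hδ]
    exact h.1 δ
  · obtain ⟨δ, hδγ, hδ⟩ := exists_ext_eq hpm ψ γ
    rw [hδ]
    apply h.2
    rcases hδγ with e | e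
    · rwa [e]
    · rw [e, Matrix.SpecialLinearGroup.coe_neg, Matrix.trace_neg, abs_neg]
      exact hγ

theorem IsChar.ext {w : Mer} {ψ : Δ →* ℂˣ} (h : IsChar w ψ) : IsChar w (ext hpm ψ) := by
  intro γ
  obtain ⟨δ, hδγ, hδ⟩ := exists_ext_eq hpm ψ γ
  rw [hδ, ← h δ]
  rcases hδγ with e | e
  · rw [e]
  · rw [e, GoodPar.cmp_neg]

theorem IsChar.of_ext (hΔ : Δ ≤ Γ) {w : Mer} {ψ : Δ →* ℂˣ} (h : IsChar w (An1.ext hpm ψ)) :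
    IsChar w ψ := by
  intro δ
  have := h ⟨δ, hΔ δ.2⟩
  rwa [ext_of_mem hpm ψ ⟨δ, hΔ δ.2⟩ δ.2] at this

include hpm in
/-- invariance under `Δ` implies invariance under `Γ = ± Δ`. -/
theorem cmp_eq_of_pm {w : Mer} (h : ∀ δ : Δ, cmp (slp (δ : SL(2, ℤ))) w = w) (γ : Γ) :
    cmp (slp (γ : SL(2, ℤ))) w = w := by
  rcases hpm γ γ.2 with h1 | h1
  · exact h ⟨_, h1⟩
  · rw [← GoodPar.cmp_neg]
    exact h ⟨_, h1⟩

/-- the character of an `m`-th root of a `Δ`-invariant function has exponent `m`. -/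
theorem IsChar.pow_eq_one {w : Mer} (hw0 : w ≠ 0) {χ : Δ →* ℂˣ} (h : IsChar w χ) (m : ℕ)
    (hinv : ∀ δ : Δ, cmp (slp (δ : SL(2, ℤ))) (w ^ m) = w ^ m) : χ ^ m = 1 :=
  IsChar.unique (pow_ne_zero m hw0) (h.pow m) (isChar_one_iff.mpr hinv)

end Ext

variable {Γ : Subgroup SL(2, ℤ)} [Γ.FiniteIndex] {h : ℕ} [NeZero h] (D : Gens Γ h)
  {Δ : Subgroup SL(2, ℤ)}

/-- `χ` is the character of the `m`-th roots of `f`. -/
def HasCharC (m : ℕ) (f : D.F) (χ : Δ →* ℂˣ) : Prop :=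
  ∃ w : Mer, w ≠ 0 ∧ w ^ m = D.toMer f ∧ IsChar w χ

variable {D}

theorem exists_hasCharC (hT : ModularGroup.T ∈ Γ) (hΔ : Δ ≤ Γ) (m : ℕ) (hm : 0 < m) (f : D.F)
    (hf0 : f ≠ 0) (hf : DivBy ℂ m f) : ∃ χ : Δ →* ℂˣ, HasCharC D m f χ ∧ χ ^ m = 1 := by
  have hne : D.toMer f ≠ 0 := by rwa [Ne, map_eq_zero]
  obtain ⟨w, hw⟩ := exists_root m hm (D.toMer f) hne
    (fun τ => (D.modelC hT).dvd_ordAt m f hf τ)
  have hw0 : w ≠ 0 := by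
    rintro rfl
    rw [zero_pow hm.ne'] at hw
    exact hne hw.symm
  obtain ⟨χ, hχ, hχm⟩ := exists_isChar_of_pow (Γ := Δ) m hm w hw0
    (fun γ => by rw [hw]; exact D.cmp_toMer ⟨γ, hΔ γ.2⟩ _)
  exact ⟨χ, ⟨w, hw0, hw, hχ⟩, hχm⟩

theorem HasCharC.unique {m : ℕ} (hm : 0 < m) {f : D.F} {χ χ' : Δ →* ℂˣ}
    (h : HasCharC D m f χ) (h' : HasCharC D m f χ') : χ = χ' := by
  obtain ⟨w, hw0, hw, hχ⟩ := h
  obtain ⟨w', hw'0, hw', hχ'⟩ := h'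
  obtain ⟨c, -, hc⟩ := exists_const_of_pow_eq m hm hw0 (hw'.trans hw.symm)
  have h2 : IsChar w' χ := hc ▸ hχ.const_mul c
  exact IsChar.unique hw'0 h2 hχ'

theorem HasCharC.mul {m : ℕ} {f g : D.F} {χ χ' : Δ →* ℂˣ}
    (h : HasCharC D m f χ) (h' : HasCharC D m g χ') : HasCharC D m (f * g) (χ * χ') := by
  obtain ⟨w, hw0, hw, hχ⟩ := h
  obtain ⟨w', hw'0, hw', hχ'⟩ := h'
  exact ⟨w * w', mul_ne_zero hw0 hw'0, by rw [mul_pow, hw, hw', map_mul], hχ.mul hχ'⟩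

theorem HasCharC.inv {m : ℕ} {f : D.F} {χ : Δ →* ℂˣ}
    (h : HasCharC D m f χ) : HasCharC D m f⁻¹ χ⁻¹ := by
  obtain ⟨w, hw0, hw, hχ⟩ := h
  exact ⟨w⁻¹, inv_ne_zero hw0, by rw [inv_pow, hw, map_inv₀], hχ.inv⟩

theorem hasCharC_pow (hΔ : Δ ≤ Γ) (m : ℕ) (k : D.F) (hk : k ≠ 0) :
    HasCharC D m (k ^ m) (1 : Δ →* ℂˣ) :=
  ⟨D.toMer k, by rwa [Ne, map_eq_zero], by rw [map_pow],
    isChar_one_iff.mpr fun γ => D.cmp_toMer ⟨γ, hΔ γ.2⟩ k⟩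

theorem HasCharC.ne_zero {m : ℕ} (hm : 0 < m) {f : D.F} {χ : Δ →* ℂˣ} (h : HasCharC D m f χ) :
    f ≠ 0 := by
  obtain ⟨w, hw0, hw, -⟩ := h
  rintro rfl
  rw [map_zero] at hw
  exact hw0 ((pow_eq_zero_iff hm.ne').mp hw)

/-- kernel (`mem_range_of_pow`). -/
theorem HasCharC.exists_root (hT : ModularGroup.T ∈ Γ) (hpm : ∀ γ ∈ Γ, γ ∈ Δ ∨ -γ ∈ Δ)
    {m : ℕ} (hm : 0 < m) {f : D.F} (h : HasCharC D m f (1 : Δ →* ℂˣ)) :
    ∃ g : D.F, f = g ^ m := by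
  obtain ⟨w, hw0, hw, hχ⟩ := h
  obtain ⟨g, hg⟩ := D.mem_range_of_pow hT m hm w f hw (cmp_eq_of_pm hpm (isChar_one_iff.mp hχ))
  refine ⟨g, D.toMer_injective ?_⟩
  rw [map_pow, hg, hw]

/-- two elements with the same character differ by an `m`-th power. -/
theorem HasCharC.exists_eq_mul_pow (hT : ModularGroup.T ∈ Γ) (hpm : ∀ γ ∈ Γ, γ ∈ Δ ∨ -γ ∈ Δ)
    {m : ℕ} (hm : 0 < m) {f g : D.F}
    {χ : Δ →* ℂˣ} (h : HasCharC D m f χ) (h' : HasCharC D m g χ) :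
    ∃ k : D.F, k ≠ 0 ∧ g = f * k ^ m := by
  have hf0 : f ≠ 0 := h.ne_zero hm
  have hg0 : g ≠ 0 := h'.ne_zero hm
  have h1 : HasCharC D m (g * f⁻¹) (1 : Δ →* ℂˣ) := by
    have h2 := h'.mul h.inv
    have h3 : χ * χ⁻¹ = 1 := mul_inv_cancel χ
    rw [h3] at h2
    exact h2
  obtain ⟨k, hk⟩ := h1.exists_root hT hpm hm
  refine ⟨k, ?_, ?_⟩
  · rintro rfl
    rw [zero_pow hm.ne'] at hk
    exact (mul_ne_zero hg0 (inv_ne_zero hf0)) hk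
  · rw [← hk]
    field_simp

/-- the hypotheses of the generic descent. -/
theorem descData (hT : ModularGroup.T ∈ Γ)
    (hσ : ∀ (σ : ℂ ≃+* ℂ) (x : LaurentSeries ℂ), x ∈ D.FC → coeffMap (σ : ℂ →+* ℂ) x ∈ D.FC) :
    Desc.Data D.FC where
  j_mem := by
    rw [← D.S_j0]
    exact D.S_mem _
  fin := by
    have h1 := D.finiteDimensional_FC hT
    have h2 : D.jC = ⟨jqModC ℂ, by rw [← D.S_j0]; exact D.S_mem _⟩ := Subtype.ext D.S_j0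
    rwa [h2] at h1
  stable := hσ

/-- **Descent**: every class of `D_m(F_ℂ)` modulo `m`-th powers is defined over `ℚ̄`. -/
theorem descent (hT : ModularGroup.T ∈ Γ)
    (hσ : ∀ (σ : ℂ ≃+* ℂ) (x : LaurentSeries ℂ), x ∈ D.FC → coeffMap (σ : ℂ →+* ℂ) x ∈ D.FC)
    (m : ℕ) (hm : 0 < m) (f : D.F) (hf0 : f ≠ 0) (hf : DivBy ℂ m f) :
    ∃ (f' : D.FB) (k : D.F), k ≠ 0 ∧ D.bc f' = f * k ^ m := by
  have hD := descData hT hσ
  have hreps : ∃ S : Finset D.F, ∀ σ : ℂ ≃+* ℂ, ∃ s ∈ S, ∃ k : D.F, k ≠ 0 ∧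
      hD.sig σ f = s * k ^ m := by
    refine Desc.exists_finite_reps m (fun (a : D.F) (χ : Γ →* ℂˣ) => HasCharC D m a χ)
      {χ : Γ →* ℂˣ | χ ^ m = 1} (finite_chars m hm) (fun σ => hD.sig σ f) (fun σ => ?_)
      (fun a b χ ha hb => ha.exists_eq_mul_pow hT (fun γ hγ => Or.inl hγ) hm hb)
    obtain ⟨χ, hχ, hχm⟩ := exists_hasCharC (Δ := Γ) hT le_rfl m hm (hD.sig σ f)
      (by rwa [Ne, map_eq_zero]) (hD.divBy_sig m f hf σ)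
    exact ⟨χ, hχm, hχ⟩
  obtain ⟨w₀, k, hk0, hk⟩ := hD.descent m hm f hf0 hf hreps
  have hmem : w₀ ^ m ∈ D.FQ := D.mem_FQ_of_coeffMap_mem hT _ (by rw [hk]; exact (f * k ^ m).2)
  exact ⟨⟨w₀ ^ m, hmem⟩, k, hk0, Subtype.ext hk⟩

end

end Fermat.Agent.S48.An1
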