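import Fermat.Agent.S48.An1.DictPt
import Fermat.Agent.S48.An1.DictCusp

/-! # S48/An1 (port of ES/An, generic in Γ) : Dict-2 assembled. -/

set_option autoImplicit false

open AlgebraicCurve ModularCurve UpperHalfPlane
open scoped MatrixGroups IntermediateField Manifold ModularForm

namespace Fermat.Agent.S48.An1

open Fermat.Agent.ES.An

open Fermat.Agent.S24

noncomputable section

variable {Γ : Subgroup SL(2, ℤ)} [Γ.FiniteIndex] {N : ℕ} [NeZero N] {K F : Type} [Field K] [Field F] [Algebra K F] [Algebra K ℂ]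
  [IsAlgClosed K] [CharZero K]

theorem Model.divBy_of_char (M : Model Γ N K F) (m : ℕ) (f : F) (hf0 : f ≠ 0) (w : Mer)
    (hw : w ^ m = M.φ f) (ψ : Γ →* ℂˣ) (hψ : IsGood ψ)
    (hc : IsChar w ψ) (hcusp : ∀ g : SL(2, ℤ), cmp (slp g) w ∈ MerCusp N) : DivBy K m f := by
  intro P
  rcases lt_or_ge (P.ord M.j) 0 with h | h
  · exact M.dvd_ord_of_char_cusp m f hf0 w hw ψ hψ hc hcusp P h
  · exact M.dvd_ord_of_char_pt m f hf0 w hw ψ hψ hc P h

end

end Fermat.Agent.S48.An1
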