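import Fermat.Agent.S48.An1.Dia
import Fermat.Agent.S48.An1.Lau2
import Fermat.Agent.S48.An1.HeckeMF
import Fermat.Agent.ES.An.Hecke

/-!
# S48 / An1 : the Hecke data `H1 D : B1.HeckeData (F1Q M) M`

* `merOp_T1_eq`   : `merOp T_p u = (u ∘ σ_p)(p τ) * ∏_j u((τ + j)/p)`;
* `hecke_spec`    : `hecke2 p (⟨p⟩ f) f ∈ F1(M)` and `φ (T_p f) = merOp T_p (φ f)`;
* `cmp_merOp_T1`  : `merOp T_p` commutes with `Γ₀(M)` on `Γ₁(M)`-invariant functions;
* `H1 D`, `φ_heckeF`, `φ_H1_dia`.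
-/

set_option autoImplicit false
set_option maxHeartbeats 400000

open AlgebraicCurve ModularCurve UpperHalfPlane CongruenceSubgroup
open scoped MatrixGroups

namespace Fermat.Agent.S48.An1

open Fermat.Agent.S24 Fermat.Agent.ES Fermat.Agent.ES.An Fermat.Agent.S48.Coh1
open Fermat.Agent.ES.D (GoodPrime)

noncomputable section

variable {M : ℕ} [NeZero M]

section T

variable (p : ℕ) [Fact p.Prime] (hpM : ¬ p ∣ M)

/-- `(p 0; 0 1)` in `GL₂(ℝ)⁺`. -/
def diagP : GLp := ⟨ModularForm.heckeDiagMatrix p, ModularForm.det_heckeDiagMatrix_pos p⟩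

/-- `(1 j; 0 p)` in `GL₂(ℝ)⁺`. -/
def matP (j : ZMod p) : GLp := ⟨ModularForm.heckeMatrix p j.val, ModularForm.det_heckeMatrix_pos p j.val⟩

/-- the multiplicative Hecke operator `T_p` on `Mer`. -/
def merT (u : Mer) : Mer := merOp (T1 M p hpM) (det_repT_pos M p hpM) u

theorem merT_eq (u : Mer) :
    merT p hpM u = cmp (diagP p) (cmp (slp (sig M (unitP M p hpM) : SL(2, ℤ))) u)
      * ∏ j : ZMod p, cmp (matP p j) u := by
  unfold merT merOp
  refine (Fintype.prod_option (fun x : OnePoint (ZMod p) =>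
    cmp (repP (T1 M p hpM) (det_repT_pos M p hpM) x) u)).trans ?_
  congr 1
  · rw [← cmp_mul]
    exact congrArg (fun α => cmp α u) (Subtype.ext rfl)
  · refine Finset.prod_congr rfl fun j _ => ?_
    exact congrArg (fun α => cmp α u) (Subtype.ext (repT_coe M p hpM j))

/-- `merOp T_p` commutes with the action of `Γ₀(M)` on `Γ₁(M)`-invariant functions. -/
theorem cmp_merT {u : Mer} (hu : ∀ γ : Gamma1 M, cmp (slp (γ : SL(2, ℤ))) u = u) (g : Gamma0 M) :
    cmp (slp (g : SL(2, ℤ))) (merT p hpM u) = merT p hpM (cmp (slp (g : SL(2, ℤ))) u) := by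
  have hC : ∀ x : (T0 M p hpM).X, 0 < ((T0 M p hpM).rep x).val.det := det_repT_pos M p hpM
  have h0 : ∀ v, merT p hpM v = merOp (T0 M p hpM) hC v := fun _ => rfl
  rw [h0, h0]
  refine (cmp_merOp (T0 M p hpM) hC u g).trans ?_
  have h1 : ∀ x : (T0 M p hpM).X, cmp (slp ((T0 M p hpM).c g x : SL(2, ℤ))) u
      = cmp (slp (g : SL(2, ℤ))) u :=
    fun x => cmp_eq_of_Gamma0Map_eq hu (Gamma0Map_T0_c M p hpM g x)
  rw [Finset.prod_congr rfl fun x _ => by rw [h1 x]]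
  exact Equiv.prod_comp ((T0 M p hpM).perm g)
    (fun x => cmp (repP (T0 M p hpM) hC x) (cmp (slp (g : SL(2, ℤ))) u))

theorem hasLau_merT (u' u : Mer) (x' x : LaurentSeries ℂ)
    (hu'u : u' = cmp (slp (sig M (unitP M p hpM) : SL(2, ℤ))) u)
    (hu' : HasLau 1 u' x') (hu : HasLau 1 u x) (hu0 : u ≠ 0) :
    haveI : NeZero p := ⟨(Fact.out : p.Prime).ne_zero⟩
    HasLau 1 (merT p hpM u) (B1.hecke2 p x' x) := by
  haveI : NeZero p := ⟨(Fact.out : p.Prime).ne_zero⟩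
  have hp : p ≠ 0 := (Fact.out : p.Prime).ne_zero
  rw [merT_eq, ← hu'u]
  exact hasLau_hecke2_of p (diagP p) (matP p)
    (fun τ => ModularForm.coe_heckeDiagMatrix_smul hp τ)
    (fun j τ => ModularForm.coe_heckeMatrix_smul hp j.val τ) u' u x' x hu' hu hu0

end T

variable (D : X1Data M)

/-- **`T_p` preserves `F1(M)`**, and is given by `merT` on `Mer`. -/
theorem hecke_spec (p : GoodPrime M) (f : (X1.F1Q M).F) :
    haveI : Fact p.1.Prime := ⟨p.2.1⟩
    ∃ h : B1.hecke2 p.1 ((dia D (B1.gpUnit p) f : (X1.F1Q M).F) : LaurentSeries Qb)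
        (f : LaurentSeries Qb) ∈ (X1.F1Q M).E,
      D.φ ⟨_, h⟩ = merT p.1 p.2.2 (D.φ f) := by
  haveI : Fact p.1.Prime := ⟨p.2.1⟩
  by_cases hf : f = 0
  · subst hf
    have h0 : B1.hecke2 p.1 ((dia D (B1.gpUnit p) 0 : (X1.F1Q M).F) : LaurentSeries Qb)
        ((0 : (X1.F1Q M).F) : LaurentSeries Qb) = 0 := by
      rw [map_zero]
      unfold B1.hecke2
      rw [ZeroMemClass.coe_zero, map_zero, zero_mul]
    have hm : B1.hecke2 p.1 ((dia D (B1.gpUnit p) 0 : (X1.F1Q M).F) : LaurentSeries Qb)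
        ((0 : (X1.F1Q M).F) : LaurentSeries Qb) ∈ (X1.F1Q M).E := h0 ▸ zero_mem _
    refine ⟨hm, ?_⟩
    have h1 : (⟨_, hm⟩ : (X1.F1Q M).F) = 0 := Subtype.ext h0
    rw [h1, map_zero, merT_eq, map_zero, map_zero, zero_mul]
  · have hu0 : D.φ f ≠ 0 := (map_ne_zero _).mpr hf
    have hL := hasLau_merT p.1 p.2.2 (D.φ (dia D (B1.gpUnit p) f)) (D.φ f) _ _
      (φ_dia D _ f) (D.hasLau _) (D.hasLau f) hu0
    rw [← B1.coeffMap_hecke2 iotaC p.1 (restrictRootsOfUnity_iotaC_bijective p.1)] at hL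
    exact D.exists_of_isMFr _ _ (isMFr_merOp_T1 M p.1 p.2.2 (D.isMFr f)) hL

/-- **The Hecke data of `F1(M)`.** -/
def H1 : B1.HeckeData (X1.F1Q M) M where
  dia := dia D
  dia_gal := dia_gal D
  hecke_mem p f := (hecke_spec D p f).choose
  dia_hecke d p f := by
    haveI : Fact p.1.Prime := ⟨p.2.1⟩
    obtain ⟨h1, h2⟩ := hecke_spec D p f
    obtain ⟨h3, h4⟩ := hecke_spec D p (dia D d f)
    have key : dia D d ⟨_, h1⟩ = ⟨_, h3⟩ := by
      apply D.φ_injective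
      rw [φ_dia, h2, h4, φ_dia]
      exact cmp_merT p.1 p.2.2 (fun γ => D.inv1 γ f) (sig M d)
    exact congrArg Subtype.val key

@[simp] theorem H1_dia (d : (ZMod M)ˣ) : (H1 D).dia d = dia D d := rfl

theorem φ_H1_dia (d : (ZMod M)ˣ) (f : (X1.F1Q M).F) :
    D.φ ((H1 D).dia d f) = cmp (slp (sig M d : SL(2, ℤ))) (D.φ f) := φ_dia D d f

theorem φ_heckeF (p : GoodPrime M) (f : (X1.F1Q M).F) :
    haveI : Fact p.1.Prime := ⟨p.2.1⟩
    D.φ ((H1 D).heckeF p f) = merT p.1 p.2.2 (D.φ f) :=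
  (hecke_spec D p f).choose_spec

/-- the operators `T_p`, `⟨d⟩` on `F1(M)`. -/
def opF : Idx M → (X1.F1Q M).F → (X1.F1Q M).F
  | Sum.inl p => (H1 D).heckeF p
  | Sum.inr d => (H1 D).dia d

/-- **analytic description of `T_p`, `⟨d⟩`.** -/
theorem φ_opF (i : Idx M) (f : (X1.F1Q M).F) :
    D.φ (opF D i f) = merOp (corrIdx M i) (det_corrIdx_pos M i) (D.φ f) := by
  rcases i with p | d
  · exact φ_heckeF D p f
  · refine (φ_H1_dia D d f).trans ?_
    exact (Fintype.prod_unique (ι := Unit) (fun x : Unit =>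
      cmp (repP (D1 M d) (det_corrIdx_pos M (Sum.inr d)) x) (D.φ f))).symm

end

end Fermat.Agent.S48.An1
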