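import Fermat.Agent.S48.An1.CharC
import Fermat.Agent.S48.An1.Dict
import Fermat.Agent.S48.An1.K4.Eis

/-!
# S48 / An1 / Main : the character theory (K1)-(K4), (K6), (K7) over `ℚ̄`, generic

`D : X1.Gens Γ h` (to be applied to `Γ = Gpm M = ± Γ₁(M)`, `h = M`, `D = X1.gens1 M hM`), `Δ ≤ Γ` with `Γ = ± Δ`
(to be applied to `Δ = Γ₁(M)`).

`HasChar D m f χ` : `χ : Δ →* ℂˣ` is the character of the `m`-th roots (on `ℍ`) of `f ∈ D.FB = F_ℚ̄`, i.e.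
`∃ w : Mer, w ≠ 0 ∧ w ^ m = D.toMer (D.bc f) ∧ IsChar w χ`.
-/

set_option autoImplicit false
set_option linter.unusedSectionVars false

open AlgebraicCurve ModularCurve UpperHalfPlane
open scoped MatrixGroups IntermediateField Manifold ModularForm

namespace Fermat.Agent.S48.An1

open Fermat.Agent.S24 Fermat.Agent.ES.An
open Fermat.Agent.ES (Qb)
open Fermat.Agent.S48.X1 (Gens)

noncomputable section

variable {Γ : Subgroup SL(2, ℤ)} [Γ.FiniteIndex] {h : ℕ} [NeZero h] (D : Gens Γ h)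
  {Δ : Subgroup SL(2, ℤ)}

/-- `χ` is the character of the `m`-th roots (on `ℍ`) of `f ∈ F_ℚ̄`. -/
def HasChar (m : ℕ) (f : D.FB) (χ : Δ →* ℂˣ) : Prop := HasCharC D m (D.bc f) χ

variable {D}

theorem hasChar_iff {m : ℕ} {f : D.FB} {χ : Δ →* ℂˣ} :
    HasChar D m f χ ↔ ∃ w : Mer, w ≠ 0 ∧ w ^ m = D.toMer (D.bc f) ∧ IsChar w χ := Iff.rfl

/-- (K1) existence. -/
theorem exists_hasChar (hT : ModularGroup.T ∈ Γ) (hΔ : Δ ≤ Γ) (m : ℕ) (hm : 0 < m) (f : D.FB)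
    (hf0 : f ≠ 0) (hf : DivBy Qb m f) : ∃ χ : Δ →* ℂˣ, HasChar D m f χ ∧ χ ^ m = 1 := by
  have hne : D.toMer (D.bc f) ≠ 0 := by
    rw [Ne, map_eq_zero, map_eq_zero]
    exact hf0
  obtain ⟨w, hw⟩ := exists_root m hm (D.toMer (D.bc f)) hne
    (fun τ => (D.modelB hT).dvd_ordAt m f hf τ)
  have hw0 : w ≠ 0 := by
    rintro rfl
    rw [zero_pow hm.ne'] at hw
    exact hne hw.symm
  obtain ⟨χ, hχ, hχm⟩ := exists_isChar_of_pow (Γ := Δ) m hm w hw0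
    (fun γ => by rw [hw]; exact D.cmp_toMer ⟨γ, hΔ γ.2⟩ _)
  exact ⟨χ, ⟨w, hw0, hw, hχ⟩, hχm⟩

/-- (K1) uniqueness. -/
theorem HasChar.unique {m : ℕ} (hm : 0 < m) {f : D.FB} {χ χ' : Δ →* ℂˣ}
    (h : HasChar D m f χ) (h' : HasChar D m f χ') : χ = χ' :=
  HasCharC.unique hm h h'

/-- (K2) multiplicativity. -/
theorem HasChar.mul {m : ℕ} {f g : D.FB} {χ χ' : Δ →* ℂˣ}
    (h : HasChar D m f χ) (h' : HasChar D m g χ') : HasChar D m (f * g) (χ * χ') := by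
  unfold HasChar
  rw [map_mul]
  exact HasCharC.mul h h'

/-- the character has exponent `m`. -/
theorem HasChar.pow_eq_one (hΔ : Δ ≤ Γ) {m : ℕ} {f : D.FB} {χ : Δ →* ℂˣ}
    (h : HasChar D m f χ) : χ ^ m = 1 := by
  obtain ⟨w, hw0, hw, hχ⟩ := h
  exact hχ.pow_eq_one hw0 m (fun δ => by rw [hw]; exact D.cmp_toMer ⟨δ, hΔ δ.2⟩ _)

/-- (K3) kernel. -/
theorem hasChar_one_iff (hT : ModularGroup.T ∈ Γ) (hΔ : Δ ≤ Γ) (hpm : ∀ γ ∈ Γ, γ ∈ Δ ∨ -γ ∈ Δ)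
    {m : ℕ} (hm : 0 < m) {f : D.FB} (hf0 : f ≠ 0) :
    HasChar D m f (1 : Δ →* ℂˣ) ↔ ∃ k : D.FB, f = k ^ m := by
  constructor
  · intro h
    obtain ⟨g, hg⟩ := HasCharC.exists_root hT hpm hm h
    exact D.exists_root_of_bc hT m hm f g hg
  · rintro ⟨k, rfl⟩
    have hk : k ≠ 0 := by
      rintro rfl
      exact hf0 (zero_pow hm.ne')
    unfold HasChar
    rw [map_pow]
    exact hasCharC_pow hΔ m (D.bc k) (by rwa [Ne, map_eq_zero])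

/-- (K4) existence of classes with prescribed good character. -/
theorem exists_of_isGood (hT : ModularGroup.T ∈ Γ) (hΔ : Δ ≤ Γ)
    (hpm : ∀ γ ∈ Γ, γ ∈ Δ ∨ -γ ∈ Δ) (hneg : (-1 : SL(2, ℤ)) ∈ Γ)
    (hwd : ∀ g : SL(2, ℤ), g * ModularGroup.T ^ (h : ℤ) * g⁻¹ ∈ Γ)
    (hσ : ∀ (σ : ℂ ≃+* ℂ) (x : LaurentSeries ℂ), x ∈ D.FC → coeffMap (σ : ℂ →+* ℂ) x ∈ D.FC)
    (ψ : Δ →* ℂˣ) (hψ : IsGood ψ) (m : ℕ) (hm : 0 < m) (hψm : ψ ^ m = 1) :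
    ∃ f : D.FB, f ≠ 0 ∧ DivBy Qb m f ∧ HasChar D m f ψ := by
  have hψ' := isGood_ext hpm hψ
  obtain ⟨w, A, B, hw0, hc, hcusp, hB0, hwAB, hA1, hA2, hB1, hB2⟩ :=
    K4.exists_char_fun hneg h hwd (ext hpm ψ) hψ' m (ext_pow_eq_one hpm hψm)
  obtain ⟨f, hf⟩ := D.mem_range_of_isMFr hT (w ^ m)
    ⟨4 * (m : ℤ), A, B, X1.isMF_of _ _ A.2 hA1 hA2, X1.isMF_of _ _ B.2 hB1 hB2, hB0, hwAB⟩
  have hw : w ^ m = D.toMer f := hf.symm
  have hf0 : f ≠ 0 := by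
    rintro rfl
    rw [map_zero] at hw
    exact hw0 (pow_eq_zero_iff hm.ne' |>.mp hw)
  have hfD : DivBy ℂ m f := (D.modelC hT).divBy_of_char m f hf0 w hw _ hψ' hc hcusp
  obtain ⟨f', k, hk0, hf'⟩ := descent hT hσ m hm f hf0 hfD
  have hf'0 : f' ≠ 0 := by
    rintro rfl
    rw [map_zero] at hf'
    exact mul_ne_zero hf0 (pow_ne_zero _ hk0) hf'.symm
  set w' : Mer := w * D.toMer k with hw'
  have hth0 : D.toMer k ≠ 0 := by rwa [Ne, map_eq_zero]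
  have hw'0 : w' ≠ 0 := mul_ne_zero hw0 hth0
  have hw'm : w' ^ m = D.toMer (D.bc f') := by
    rw [hf', map_mul, map_pow, hw', mul_pow, hw]
  have hc' : IsChar w' (ext hpm ψ) := by
    have h1 : IsChar (D.toMer k) (1 : Γ →* ℂˣ) :=
      isChar_one_iff.mpr fun γ => D.cmp_toMer γ k
    have h2 := hc.mul h1
    have h3 : ext hpm ψ * (1 : Γ →* ℂˣ) = ext hpm ψ := by
      ext γ
      simp
    rw [h3] at h2
    exact h2
  have hcusp' : ∀ g : SL(2, ℤ), cmp (slp g) w' ∈ MerCusp h := by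
    intro g
    rw [hw', map_mul]
    exact mul_mem (hcusp g) (D.cmp_toMer_mem_MerCusp g k)
  exact ⟨f', hf'0, (D.modelB hT).divBy_of_char m f' hf'0 w' hw'm _ hψ' hc' hcusp',
    ⟨w', hw'0, hw'm, hc'.of_ext hpm hΔ⟩⟩

/-- (K6) the character of a class is good. -/
theorem HasChar.isGood (hT : ModularGroup.T ∈ Γ) (hΔ : Δ ≤ Γ)
    (hpm : ∀ γ ∈ Γ, γ ∈ Δ ∨ -γ ∈ Δ) (hneg : (-1 : SL(2, ℤ)) ∈ Γ)
    (hΓ : CongruenceSubgroup.Gamma h ≤ Γ)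
    (hell : ∀ δ ∈ Δ, |(δ : Matrix (Fin 2) (Fin 2) ℤ).trace| ≤ 2 →
      (δ : Matrix (Fin 2) (Fin 2) ℤ).trace ^ 2 = 4)
    {m : ℕ} (hm : 0 < m) {f : D.FB} (hf0 : f ≠ 0) (hf : DivBy Qb m f) {χ : Δ →* ℂˣ}
    (hχ : HasChar D m f χ) : IsGood χ := by
  have hχm := hχ.pow_eq_one hΔ
  obtain ⟨w, hw0, hw, hc⟩ := hχ
  refine ⟨fun δ => ?_, fun δ hδ => ?_⟩
  · have h1 : (((χ δ : ℂˣ) : ℂ)) ^ m = 1 := by
      have := congrArg (fun c : ℂˣ => (c : ℂ)) (DFunLike.congr_fun hχm δ)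
      simpa using this
    exact Complex.norm_eq_one_of_pow_eq_one h1 hm.ne'
  · have h1 := (D.modelB hT).char_par hΓ (fun g hg => by
      have := mul_mem hneg hg
      rwa [neg_mul_neg, one_mul] at this) hm hf0 hf hw0 hw (hc.ext hpm) ⟨δ, hΔ δ.2⟩
      (hell δ δ.2 hδ)
    rwa [ext_of_mem hpm χ ⟨δ, hΔ δ.2⟩ δ.2] at h1

/-- (K7) a function whose `m`-th roots have a good character has divisor divisible by `m`. -/
theorem HasChar.divBy (hT : ModularGroup.T ∈ Γ)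
    (hpm : ∀ γ ∈ Γ, γ ∈ Δ ∨ -γ ∈ Δ)
    (hwd : ∀ g : SL(2, ℤ), g * ModularGroup.T ^ (h : ℤ) * g⁻¹ ∈ Γ)
    {m : ℕ} (hm : 0 < m) {f : D.FB} (hf0 : f ≠ 0) {χ : Δ →* ℂˣ}
    (hχ : HasChar D m f χ) (hgood : IsGood χ) : DivBy Qb m f := by
  obtain ⟨w, hw0, hw, hc⟩ := hχ
  have hgood' := isGood_ext hpm hgood
  have hc' := hc.ext hpm
  refine (D.modelB hT).divBy_of_char m f hf0 w hw _ hgood' hc' (fun g => ?_)
  refine GoodPar.mem_MerCusp_of_pow hm _ ?_ ?_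
  · have h1 : cmp (slp (g * ModularGroup.T ^ (h : ℤ) * g⁻¹)) w = w := by
      have h2 := hc' ⟨_, hwd g⟩
      rw [hgood'.2 ⟨_, hwd g⟩ ?_] at h2
      · simpa using h2
      · show |((g * ModularGroup.T ^ (h : ℤ) * g⁻¹ : SL(2, ℤ)) : Matrix (Fin 2) (Fin 2) ℤ).trace| ≤ 2
        rw [Matrix.SpecialLinearGroup.coe_mul, Matrix.SpecialLinearGroup.coe_mul,
          Matrix.trace_mul_comm, ← Matrix.mul_assoc, ← Matrix.SpecialLinearGroup.coe_mul,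
          inv_mul_cancel, Matrix.SpecialLinearGroup.coe_one, Matrix.one_mul,
          ModularGroup.coe_T_zpow]
        simp [Matrix.trace_fin_two]
    have h3 := GoodPar.cmp_of_conj (g := g⁻¹) (c := ModularGroup.T ^ h) (u := w) (v := w)
      (by rw [inv_inv, ← zpow_natCast]; exact h1)
    rwa [inv_inv] at h3
  · rw [← map_pow, hw]
    exact D.cmp_toMer_mem_MerCusp g _

end

end Fermat.Agent.S48.An1
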